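/-
M3 (S24 cluster): Klein's `j`-function as an analytic function on `ℍ`, and the theorem that
weakly holomorphic level-one modular functions are polynomials in `j`.
-/
import Mathlib
import Fermat.Agent.S23.QFun

set_option autoImplicit false

open UpperHalfPlane ModularForm EisensteinSeries Filter Topology Function Complex
open scoped MatrixGroups Manifold Real
open Fermat.Agent.S23.QF (IsQFun)

namespace Fermat.Agent.S24

local notation "Δ" => ModularForm.discriminant
local notation "𝕢" => Periodic.qParam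

/-- Klein's `j`-function, normalised as `E₄³ / Δ = q⁻¹ + 744 + ⋯`. -/
noncomputable def kleinJ (z : ℍ) : ℂ := E₄ z ^ 3 / Δ z

theorem kleinJ_eq_div : kleinJ = (⇑E₄) ^ 3 / (Δ : ℍ → ℂ) := rfl

theorem mdiff_discriminant : MDiff (Δ : ℍ → ℂ) := CuspForm.discriminant.holo'

theorem kleinJ_mdiff : MDiff kleinJ := by
  rw [kleinJ_eq_div]
  exact MDifferentiable.div ((ModularFormClass.holo E₄).pow 3) mdiff_discriminant
    discriminant_ne_zero

theorem discriminant_slash_SL (γ : SL(2, ℤ)) : (Δ : ℍ → ℂ) ∣[(12 : ℤ)] γ = Δ := by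
  rw [ModularForm.SL_slash]
  exact CuspForm.discriminant.slash_action_eq' (γ : GL (Fin 2) ℝ) ⟨γ, rfl⟩

theorem E4_slash_SL (γ : SL(2, ℤ)) : (⇑E₄ : ℍ → ℂ) ∣[(4 : ℤ)] γ = ⇑E₄ := by
  rw [ModularForm.SL_slash]
  exact E₄.slash_action_eq' (γ : GL (Fin 2) ℝ) ⟨γ, rfl⟩

theorem kleinJ_slash (γ : SL(2, ℤ)) : kleinJ ∣[(0 : ℤ)] γ = kleinJ := by
  rw [kleinJ_eq_div]
  have h := ModularForm.div_slash_SL2 12 12 γ ((⇑E₄) ^ 3) (Δ : ℍ → ℂ)
  rw [sub_self] at h
  rw [h, discriminant_slash_SL]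
  congr 1
  have h3 : (⇑E₄ : ℍ → ℂ) ^ 3 = ⇑E₄ * (⇑E₄ * ⇑E₄) := by ring
  rw [h3, show (12 : ℤ) = 4 + (4 + 4) by norm_num, ModularForm.mul_slash_SL2,
    ModularForm.mul_slash_SL2, E4_slash_SL]

theorem kleinJ_smul (γ : SL(2, ℤ)) (z : ℍ) : kleinJ (γ • z) = kleinJ z := by
  have h := congrFun (kleinJ_slash γ) z
  rw [ModularForm.SL_slash_apply] at h
  simpa using h

/-- the function `q = exp (2 π i z)` on the upper half plane -/
noncomputable def qH (z : ℍ) : ℂ := 𝕢 1 (z : ℂ)

theorem qH_ne_zero (z : ℍ) : qH z ≠ 0 := Periodic.qParam_ne_zero _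

theorem norm_qH (z : ℍ) : ‖qH z‖ = Real.exp (-2 * π * z.im) := by
  simp [qH, Periodic.norm_qParam]

theorem qH_mdiff : MDiff qH := by
  rw [UpperHalfPlane.mdifferentiable_iff]
  refine (Periodic.differentiable_qParam (h := 1)).differentiableOn.congr fun w hw => ?_
  simp [qH, ofComplex_apply_of_im_pos hw]

theorem qParam_add_one (w : ℂ) : 𝕢 1 (w + 1) = 𝕢 1 w := by
  simp only [Periodic.qParam, ofReal_one, div_one]
  rw [mul_add, mul_one, Complex.exp_periodic _]

theorem qH_periodic : Periodic (qH ∘ ofComplex) (1 : ℂ) := by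
  intro w
  by_cases hw : 0 < w.im
  · have hw1 : 0 < (w + 1).im := by simpa using hw
    simp only [comp_apply, qH, ofComplex_apply_of_im_pos hw, ofComplex_apply_of_im_pos hw1]
    simpa using qParam_add_one w
  · have hw0 : w.im ≤ 0 := not_lt.mp hw
    have hw1 : (w + 1).im ≤ 0 := by simpa using hw0
    simp [comp_apply, ofComplex_apply_of_im_nonpos hw0, ofComplex_apply_of_im_nonpos hw1]

theorem qH_tendsto : Tendsto qH atImInfty (𝓝 0) := qParam_tendsto_atImInfty one_pos

theorem isQFun_qH : IsQFun qH :=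
  ⟨qH_mdiff, qH_periodic, IsZeroAtImInfty.isBoundedAtImInfty qH_tendsto⟩

theorem IsQFun.isBigO_sub_valueAtInfty {G : ℍ → ℂ} (hG : IsQFun G) :
    (fun τ => G τ - valueAtInfty G) =O[atImInfty] fun τ => ‖qH τ‖ := by
  have h := exp_decay_sub_atImInfty one_pos hG.periodic' hG.mdiff hG.bdd
  refine h.congr_right fun τ => ?_
  rw [norm_qH, div_one]

theorem IsQFun.tendsto_valueAtInfty {G : ℍ → ℂ} (hG : IsQFun G) :
    Tendsto G atImInfty (𝓝 (valueAtInfty G)) := by
  have h1 : Tendsto (fun τ => G τ - valueAtInfty G) atImInfty (𝓝 0) := by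
    refine (IsQFun.isBigO_sub_valueAtInfty hG).trans_tendsto ?_
    simpa using qH_tendsto.norm
  simpa using h1.add_const (valueAtInfty G)

theorem IsQFun.valueAtInfty_eq {G : ℍ → ℂ} (hG : IsQFun G) {c : ℂ}
    (h : Tendsto G atImInfty (𝓝 c)) : valueAtInfty G = c :=
  tendsto_nhds_unique (IsQFun.tendsto_valueAtInfty hG) h

/-- a `q`-function vanishing at `i∞` is divisible by `q` -/
theorem IsQFun.div_qH {G : ℍ → ℂ} (hG : IsQFun G) (h0 : valueAtInfty G = 0) :
    IsQFun (G / qH) := by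
  refine ⟨MDifferentiable.div hG.mdiff qH_mdiff qH_ne_zero, ?_, ?_⟩
  · have : (G / qH) ∘ ofComplex = (G ∘ ofComplex) / (qH ∘ ofComplex) := rfl
    rw [this]
    exact hG.periodic.div qH_periodic
  · have h := IsQFun.isBigO_sub_valueAtInfty hG
    simp only [h0, sub_zero] at h
    obtain ⟨C, hC⟩ := h.bound
    refine Asymptotics.IsBigO.of_bound C ?_
    filter_upwards [hC] with τ hτ
    have hq : 0 < ‖qH τ‖ := norm_pos_iff.mpr (qH_ne_zero τ)
    rw [norm_norm] at hτ
    rw [Pi.div_apply, norm_div, Pi.one_apply, norm_one, mul_one, div_le_iff₀ hq]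
    exact hτ

theorem IsQFun.div {F G : ℍ → ℂ} (hF : IsQFun F) (hG : IsQFun G) (hG0 : ∀ z, G z ≠ 0)
    (hGv : valueAtInfty G ≠ 0) : IsQFun (F / G) := by
  refine ⟨MDifferentiable.div hF.mdiff hG.mdiff hG0, ?_, ?_⟩
  · have : (F / G) ∘ ofComplex = (F ∘ ofComplex) / (G ∘ ofComplex) := rfl
    rw [this]
    exact hF.periodic.div hG.periodic
  · have hinv : Tendsto (fun z => (G z)⁻¹) atImInfty (𝓝 (valueAtInfty G)⁻¹) :=
      (IsQFun.tendsto_valueAtInfty hG).inv₀ hGv
    have hb : IsBoundedAtImInfty (fun z => (G z)⁻¹) := by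
      have h0 : Tendsto (fun z => (G z)⁻¹ - (valueAtInfty G)⁻¹) atImInfty (𝓝 0) := by
        simpa using hinv.sub_const (valueAtInfty G)⁻¹
      have h1 : IsBoundedAtImInfty (fun z => (G z)⁻¹ - (valueAtInfty G)⁻¹) :=
        IsZeroAtImInfty.isBoundedAtImInfty h0
      have h2 : IsBoundedAtImInfty (fun _ : ℍ => (valueAtInfty G)⁻¹) :=
        Filter.const_boundedAtFilter _ _
      have h3 := h1.add h2
      have h4 : ((fun z => (G z)⁻¹ - (valueAtInfty G)⁻¹) + fun _ : ℍ => (valueAtInfty G)⁻¹)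
          = fun z => (G z)⁻¹ := by ext z; simp
      rwa [h4] at h3
    have h5 := hF.bdd.mul hb
    have h6 : (F * fun z => (G z)⁻¹) = F / G := by ext z; simp [div_eq_mul_inv]
    rwa [h6] at h5

theorem isQFun_E4 : IsQFun (⇑E₄ : ℍ → ℂ) where
  mdiff := ModularFormClass.holo E₄
  periodic := by
    have := SlashInvariantFormClass.periodic_comp_ofComplex E₄ one_mem_strictPeriods_SL
    simpa using this
  bdd := ModularFormClass.bdd_at_infty E₄

theorem isQFun_discriminant : IsQFun (Δ : ℍ → ℂ) where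
  mdiff := CuspForm.discriminant.holo'
  periodic := by
    have := SlashInvariantFormClass.periodic_comp_ofComplex CuspForm.discriminant
      one_mem_strictPeriods_SL
    simpa using this
  bdd := IsZeroAtImInfty.isBoundedAtImInfty discriminant_isZeroAtImInfty

theorem valueAtInfty_E4 : valueAtInfty (⇑E₄ : ℍ → ℂ) = 1 := by
  rw [← qExpansion_coeff_zero one_pos isQFun_E4.analyticAt isQFun_E4.periodic',
    E_qExpansion_coeff (by norm_num) ⟨2, rfl⟩]
  simp

theorem tendsto_E4 : Tendsto (⇑E₄ : ℍ → ℂ) atImInfty (𝓝 1) := by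
  simpa [valueAtInfty_E4] using IsQFun.tendsto_valueAtInfty isQFun_E4

/-- `Δ / q = ∏ (1 - qⁿ)²⁴` -/
noncomputable def etaProdH : ℍ → ℂ := (Δ : ℍ → ℂ) / qH

theorem etaProdH_ne_zero (z : ℍ) : etaProdH z ≠ 0 :=
  div_ne_zero (discriminant_ne_zero z) (qH_ne_zero z)

theorem isQFun_etaProdH : IsQFun etaProdH :=
  IsQFun.div_qH isQFun_discriminant discriminant_isZeroAtImInfty.valueAtInfty_eq_zero

theorem tendsto_etaProdH : Tendsto etaProdH atImInfty (𝓝 1) := by
  refine tendsto_atImInfty_tprod_one_sub_eta_q_pow.congr fun z => ?_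
  rw [etaProdH, Pi.div_apply, discriminant_eq_q_prod z, qH, mul_div_cancel_left₀ _
    (Periodic.qParam_ne_zero _)]

theorem valueAtInfty_etaProdH : valueAtInfty etaProdH = 1 :=
  IsQFun.valueAtInfty_eq isQFun_etaProdH tendsto_etaProdH


/-! ### `q · j` at `i∞` -/

theorem qH_mul_kleinJ : qH * kleinJ = (⇑E₄ : ℍ → ℂ) ^ 3 / etaProdH := by
  ext z
  simp only [Pi.mul_apply, Pi.div_apply, Pi.pow_apply, kleinJ, etaProdH]
  field_simp [qH_ne_zero z, discriminant_ne_zero z]

theorem isQFun_qH_mul_kleinJ : IsQFun (qH * kleinJ) := by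
  rw [qH_mul_kleinJ]
  exact IsQFun.div (isQFun_E4.pow 3) isQFun_etaProdH etaProdH_ne_zero
    (by rw [valueAtInfty_etaProdH]; exact one_ne_zero)

theorem tendsto_qH_mul_kleinJ : Tendsto (qH * kleinJ) atImInfty (𝓝 1) := by
  rw [qH_mul_kleinJ]
  have := (tendsto_E4.pow 3).div tendsto_etaProdH one_ne_zero
  rw [one_pow, div_one] at this
  exact this

theorem valueAtInfty_qH_mul_kleinJ : valueAtInfty (qH * kleinJ) = 1 :=
  IsQFun.valueAtInfty_eq isQFun_qH_mul_kleinJ tendsto_qH_mul_kleinJ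


/-! ### Weakly holomorphic level-one functions are polynomials in `j` -/

theorem slash_zero_eq_iff (f : ℍ → ℂ) (γ : SL(2, ℤ)) :
    f ∣[(0 : ℤ)] γ = f ↔ ∀ z, f (γ • z) = f z := by
  constructor
  · intro h z
    have := congrFun h z
    rw [ModularForm.SL_slash_apply] at this
    simpa using this
  · intro h
    ext z
    rw [ModularForm.SL_slash_apply]
    simpa using h z

/-- holomorphic `SL(2,ℤ)`-invariant functions on `ℍ` with a pole of order `≤ m` at `i∞` -/
structure IsWeakLevelOne (m : ℕ) (f : ℍ → ℂ) : Prop where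
  mdiff : MDiff f
  inv : ∀ (γ : SL(2, ℤ)) (z : ℍ), f (γ • z) = f z
  bdd : IsBoundedAtImInfty (qH ^ m * f)

namespace IsWeakLevelOne

variable {m : ℕ} {f : ℍ → ℂ}

/-- bundle as a slash invariant form of weight `0` -/
noncomputable def toSIF (hf : IsWeakLevelOne m f) : SlashInvariantForm 𝒮ℒ 0 where
  toFun := f
  slash_action_eq' γ hγ := by
    obtain ⟨g, rfl⟩ := hγ
    exact (slash_zero_eq_iff f g).mpr (hf.inv g)

theorem periodic (hf : IsWeakLevelOne m f) : Periodic (f ∘ ofComplex) (1 : ℂ) := by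
  have := SlashInvariantFormClass.periodic_comp_ofComplex hf.toSIF one_mem_strictPeriods_SL
  have h2 : (⇑hf.toSIF : ℍ → ℂ) = f := rfl
  rw [h2] at this
  simpa using this

theorem isQFun (hf : IsWeakLevelOne m f) : IsQFun (qH ^ m * f) :=
  ⟨(qH_mdiff.pow m).mul hf.mdiff, (isQFun_qH.pow m).periodic.mul hf.periodic, hf.bdd⟩

end IsWeakLevelOne

theorem isWeakLevelOne_kleinJ : IsWeakLevelOne 1 kleinJ :=
  ⟨kleinJ_mdiff, kleinJ_smul, by simpa using isQFun_qH_mul_kleinJ.bdd⟩

theorem exists_polynomial_of_isWeakLevelOne :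
    ∀ (m : ℕ) (f : ℍ → ℂ), IsWeakLevelOne m f →
      ∃ P : Polynomial ℂ, P.natDegree ≤ m ∧ ∀ z, f z = P.eval (kleinJ z)
  | 0, f, hf => by
    have hbdd : IsBoundedAtImInfty f := by simpa using hf.bdd
    let F : ModularForm 𝒮ℒ 0 :=
      { hf.toSIF with
        holo' := hf.mdiff
        bdd_at_cusps' := fun {c} hc => by
          rw [OnePoint.isBoundedAt_iff_forall_SL2Z hc]
          intro γ _
          rw [show (hf.toSIF).toFun = f from rfl, (slash_zero_eq_iff f γ).mpr (hf.inv γ)]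
          exact hbdd }
    obtain ⟨c, hc⟩ := ModularFormClass.levelOne_weight_zero_const F
    refine ⟨Polynomial.C c, by simp, fun z => ?_⟩
    have : f z = c := congrFun hc z
    simpa using this
  | m + 1, f, hf => by
    set G : ℍ → ℂ := qH ^ (m + 1) * f with hG
    have hGQ : IsQFun G := hf.isQFun
    set c : ℂ := valueAtInfty G with hc
    set f₁ : ℍ → ℂ := f - c • kleinJ ^ (m + 1) with hf₁
    -- the numerator
    set H : ℍ → ℂ := G - c • (qH * kleinJ) ^ (m + 1) with hH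
    have hHQ : IsQFun H := hGQ.sub ((isQFun_qH_mul_kleinJ.pow (m + 1)).smul c)
    have hH0 : valueAtInfty H = 0 := by
      refine IsQFun.valueAtInfty_eq hHQ ?_
      have h1 := (IsQFun.tendsto_valueAtInfty hGQ).sub
        ((tendsto_qH_mul_kleinJ.pow (m + 1)).const_mul c)
      simp only [one_pow, mul_one, ← hc, sub_self] at h1
      refine h1.congr fun z => ?_
      simp [hH]
    have hdiv : IsQFun (H / qH) := IsQFun.div_qH hHQ hH0
    have heq : qH ^ m * f₁ = H / qH := by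
      ext z
      simp only [hf₁, hH, hG, Pi.mul_apply, Pi.sub_apply, Pi.smul_apply, Pi.pow_apply,
        Pi.div_apply, smul_eq_mul]
      field_simp [qH_ne_zero z]
      ring
    have hf₁W : IsWeakLevelOne m f₁ := by
      refine ⟨hf.mdiff.sub ((kleinJ_mdiff.pow (m + 1)).const_smul c), fun γ z => ?_, ?_⟩
      · simp only [hf₁, Pi.sub_apply, Pi.smul_apply, Pi.pow_apply, hf.inv γ z, kleinJ_smul γ z]
      · rw [heq]; exact hdiv.bdd
    obtain ⟨P₁, hP₁, hP₁e⟩ := exists_polynomial_of_isWeakLevelOne m f₁ hf₁W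
    refine ⟨P₁ + Polynomial.C c * Polynomial.X ^ (m + 1), ?_, fun z => ?_⟩
    · refine (Polynomial.natDegree_add_le _ _).trans (max_le (hP₁.trans (Nat.le_succ m)) ?_)
      exact Polynomial.natDegree_C_mul_X_pow_le c (m + 1)
    · have := hP₁e z
      simp only [hf₁, Pi.sub_apply, Pi.smul_apply, Pi.pow_apply, smul_eq_mul] at this
      simp only [Polynomial.eval_add, Polynomial.eval_mul, Polynomial.eval_C, Polynomial.eval_pow,
        Polynomial.eval_X, ← this]
      ring

/-- **Weakly holomorphic level-one modular functions are polynomials in `j`.** -/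
theorem exists_polynomial_of_levelOne_function (f : ℍ → ℂ) (hf : MDiff f)
    (hinv : ∀ γ : SL(2, ℤ), f ∣[(0 : ℤ)] γ = f) (m : ℕ)
    (hbd : IsBoundedAtImInfty (fun z => qH z ^ m * f z)) :
    ∃ P : Polynomial ℂ, P.natDegree ≤ m ∧ ∀ z, f z = P.eval (kleinJ z) :=
  exists_polynomial_of_isWeakLevelOne m f
    ⟨hf, fun γ => (slash_zero_eq_iff f γ).mp (hinv γ), hbd⟩

end Fermat.Agent.S24
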