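/-
M3 (S24 cluster), analytic side An1: Hermite normal form of `diag(d,1) γ`, the functions
`j_d(z) = j(d z)`, weakly holomorphic modular functions of level `Γ₀(N)` (holomorphic,
`Γ₀(N)`-invariant, all `SL(2,ℤ)`-translates with at most a pole at `i∞`) as a subalgebra of
`ℍ → ℂ` containing the `j_d`, `d ∣ N`.
-/
import Mathlib
import Fermat.Agent.S24.KleinJ
import Fermat.Agent.S23.DeltaN

set_option autoImplicit false

open UpperHalfPlane ModularForm EisensteinSeries Filter Topology Function Complex CongruenceSubgroup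
open scoped MatrixGroups Manifold Real
open Fermat.Agent.S23.QF (IsQFun)
open Fermat.Agent.S23 (alphaN mkSL coe_GL_val sl_det_eq val_alphaN)

namespace Fermat.Agent.S24

/-- Bezout data for the Hermite normal form of `diag(d,1) γ`. -/
theorem exists_hermite_bezout (d : ℕ) [NeZero d] (γ : SL(2, ℤ)) :
    ∃ (g x₁ r₁ u v : ℤ), 0 < g ∧ (d : ℤ) * γ 0 0 = g * x₁ ∧ γ 1 0 = g * r₁ ∧
      u * x₁ + v * r₁ = 1 := by
  have hdet := sl_det_eq γ
  set p := γ 0 0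
  set r := γ 1 0
  have hd0 : (d : ℤ) ≠ 0 := by exact_mod_cast NeZero.ne d
  have hg0 : Int.gcd ((d : ℤ) * p) r ≠ 0 := by
    intro h0
    rw [Int.gcd_eq_zero_iff] at h0
    obtain ⟨h1, h2⟩ := h0
    have hp : p = 0 := (mul_eq_zero.mp h1).resolve_left hd0
    rw [hp, h2] at hdet
    simp at hdet
  obtain ⟨x₁, hx₁⟩ : ((Int.gcd ((d : ℤ) * p) r : ℕ) : ℤ) ∣ (d : ℤ) * p := Int.gcd_dvd_left _ _
  obtain ⟨r₁, hr₁⟩ : ((Int.gcd ((d : ℤ) * p) r : ℕ) : ℤ) ∣ r := Int.gcd_dvd_right _ _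
  have hgpos : (0 : ℤ) < (Int.gcd ((d : ℤ) * p) r : ℕ) := by
    exact_mod_cast Nat.pos_of_ne_zero hg0
  refine ⟨_, x₁, r₁, Int.gcdA ((d : ℤ) * p) r, Int.gcdB ((d : ℤ) * p) r, hgpos, hx₁, hr₁, ?_⟩
  have hb := Int.gcd_eq_gcd_ab ((d : ℤ) * p) r
  have h3 : ((Int.gcd ((d : ℤ) * p) r : ℕ) : ℤ) *
      (Int.gcdA ((d : ℤ) * p) r * x₁ + Int.gcdB ((d : ℤ) * p) r * r₁) =
      ((Int.gcd ((d : ℤ) * p) r : ℕ) : ℤ) * 1 := by
    calc _ = (((Int.gcd ((d : ℤ) * p) r : ℕ) : ℤ) * x₁) * Int.gcdA ((d : ℤ) * p) r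
            + (((Int.gcd ((d : ℤ) * p) r : ℕ) : ℤ) * r₁) * Int.gcdB ((d : ℤ) * p) r := by ring
      _ = (d : ℤ) * p * Int.gcdA ((d : ℤ) * p) r + r * Int.gcdB ((d : ℤ) * p) r := by
            rw [← hx₁, ← hr₁]
      _ = _ := by rw [← hb, mul_one]
  exact mul_left_cancel₀ hgpos.ne' h3

/-- upper triangular integral matrix `(a b; 0 e)` with `a, e ≠ 0` in `GL(2,ℝ)` -/
noncomputable def upperTri (a b e : ℤ) (ha : a ≠ 0) (he : e ≠ 0) : GL (Fin 2) ℝ :=
  Matrix.GeneralLinearGroup.mkOfDetNeZero !![(a : ℝ), (b : ℝ); 0, (e : ℝ)]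
    (by simp [Matrix.det_fin_two_of, ha, he])

@[simp] theorem val_upperTri (a b e : ℤ) (ha : a ≠ 0) (he : e ≠ 0) :
    ((upperTri a b e ha he : GL (Fin 2) ℝ) : Matrix (Fin 2) (Fin 2) ℝ) =
      !![(a : ℝ), (b : ℝ); 0, (e : ℝ)] := rfl

theorem det_upperTri (a b e : ℤ) (ha : a ≠ 0) (he : e ≠ 0) :
    (upperTri a b e ha he).det.val = (a : ℝ) * e := by
  simp [upperTri, Matrix.GeneralLinearGroup.mkOfDetNeZero, Matrix.det_fin_two_of]

theorem coe_upperTri_smul (a b e : ℤ) (ha : 0 < a) (he : 0 < e) (z : ℍ) :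
    ((upperTri a b e ha.ne' he.ne' • z : ℍ) : ℂ) = ((a : ℂ) * z + b) / e := by
  have hdet : 0 < (upperTri a b e ha.ne' he.ne').det.val := by
    rw [det_upperTri]; exact mul_pos (by exact_mod_cast ha) (by exact_mod_cast he)
  rw [UpperHalfPlane.coe_smul_of_det_pos hdet]
  simp [UpperHalfPlane.num, UpperHalfPlane.denom]

/-- **Hermite normal form**: `diag(d,1) γ = τ (a b; 0 e)` with `τ ∈ SL(2,ℤ)`, `a e = d`. -/
theorem exists_hermite (d : ℕ) [NeZero d] (γ : SL(2, ℤ)) :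
    ∃ (τ : SL(2, ℤ)) (a b e : ℤ) (ha : 0 < a) (he : 0 < e), a * e = d ∧
      alphaN d * Matrix.SpecialLinearGroup.mapGL ℝ γ =
        Matrix.SpecialLinearGroup.mapGL ℝ τ * upperTri a b e ha.ne' he.ne' := by
  obtain ⟨g, x₁, r₁, u, v, hg, hx, hr, huv⟩ := exists_hermite_bezout d γ
  have hdet := sl_det_eq γ
  have hdpos : (0 : ℤ) < d := by exact_mod_cast Nat.pos_of_ne_zero (NeZero.ne d)
  set e : ℤ := x₁ * γ 1 1 - r₁ * (d * γ 0 1) with he_def
  have hge : g * e = d := by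
    rw [he_def]
    calc g * (x₁ * γ 1 1 - r₁ * (d * γ 0 1)) = (g * x₁) * γ 1 1 - (g * r₁) * (d * γ 0 1) := by ring
      _ = d * γ 0 0 * γ 1 1 - γ 1 0 * (d * γ 0 1) := by rw [← hx, ← hr]
      _ = d * (γ 0 0 * γ 1 1 - γ 0 1 * γ 1 0) := by ring
      _ = d := by rw [hdet, mul_one]
  have he : 0 < e := by
    by_contra hneg
    have : g * e ≤ 0 := mul_nonpos_of_nonneg_of_nonpos hg.le (not_lt.mp hneg)
    omega
  refine ⟨mkSL x₁ (-v) r₁ u (by linear_combination huv), g, u * (d * γ 0 1) + v * γ 1 1, e, hg, he,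
    hge, ?_⟩
  have hxR : (d : ℝ) * (γ 0 0 : ℤ) = g * x₁ := by exact_mod_cast hx
  have hrR : ((γ 1 0 : ℤ) : ℝ) = g * r₁ := by exact_mod_cast hr
  have huvR : (u : ℝ) * x₁ + v * r₁ = 1 := by exact_mod_cast huv
  have heR : (e : ℝ) = x₁ * (γ 1 1 : ℤ) - r₁ * (d * (γ 0 1 : ℤ)) := by
    rw [he_def]; push_cast; ring
  apply Matrix.GeneralLinearGroup.ext
  intro i j
  rw [Matrix.GeneralLinearGroup.coe_mul, Matrix.GeneralLinearGroup.coe_mul, coe_GL_val, coe_GL_val,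
    val_alphaN, val_upperTri]
  fin_cases i <;> fin_cases j
  · simp [mkSL]; linarith
  · simp [mkSL]
    rw [heR]
    linear_combination (-(d : ℝ) * (γ 0 1 : ℤ)) * huvR
  · simp [mkSL]; linarith
  · simp [mkSL]
    rw [heR]
    linear_combination (-((γ 1 1 : ℤ) : ℝ)) * huvR

/-! ### The functions `j(d z)` -/

/-- `j_d(z) = j(d z)` -/
noncomputable def jd (d : ℕ) [NeZero d] (z : ℍ) : ℂ := kleinJ (alphaN d • z)

theorem jd_mdiff (d : ℕ) [NeZero d] : MDiff (jd d) :=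
  kleinJ_mdiff.comp (UpperHalfPlane.mdifferentiable_smul (Fermat.Agent.S23.det_alphaN_pos d))

theorem jd_one : jd 1 = kleinJ := by
  ext z
  have : (alphaN 1 • z : ℍ) = z := by
    apply UpperHalfPlane.ext
    rw [Fermat.Agent.S23.coe_alphaN_smul]; simp
  rw [jd, this]

/-- `j_d ∘ γ` in Hermite form -/
theorem jd_smul_eq (d : ℕ) [NeZero d] (γ : SL(2, ℤ)) :
    ∃ (a b e : ℤ) (ha : 0 < a) (he : 0 < e), a * e = d ∧
      ∀ z : ℍ, jd d (γ • z) = kleinJ (upperTri a b e ha.ne' he.ne' • z) := by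
  obtain ⟨τ, a, b, e, ha, he, hae, hmat⟩ := exists_hermite d γ
  refine ⟨a, b, e, ha, he, hae, fun z => ?_⟩
  have h1 : (alphaN d • (γ • z) : ℍ) = τ • (upperTri a b e ha.ne' he.ne' • z) := by
    change alphaN d • ((Matrix.SpecialLinearGroup.mapGL ℝ γ) • z) =
      (Matrix.SpecialLinearGroup.mapGL ℝ τ) • (upperTri a b e ha.ne' he.ne' • z)
    rw [← mul_smul, ← mul_smul, hmat]
  rw [jd, h1, kleinJ_smul]

theorem jd_smul_of_mem_Gamma0 {d N : ℕ} [NeZero d] (hdN : d ∣ N) (γ : SL(2, ℤ))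
    (hγ : γ ∈ Gamma0 N) (z : ℍ) : jd d (γ • z) = jd d z := by
  have hγd : γ ∈ Gamma0 d := by
    rw [Gamma0_mem] at hγ ⊢
    rw [ZMod.intCast_zmod_eq_zero_iff_dvd] at hγ ⊢
    exact (Int.natCast_dvd_natCast.mpr hdN).trans hγ
  obtain ⟨γ', hγ'⟩ := Fermat.Agent.S23.exists_conj_of_mem_Gamma0 d γ hγd
  have h1 : (alphaN d • (γ • z) : ℍ) = γ' • (alphaN d • z) := by
    change alphaN d • ((Matrix.SpecialLinearGroup.mapGL ℝ γ) • z) =
      (Matrix.SpecialLinearGroup.mapGL ℝ γ') • (alphaN d • z)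
    rw [← mul_smul, ← mul_smul, hγ']
  rw [jd, h1, kleinJ_smul, jd]


theorem im_upperTri_smul (a b e : ℤ) (ha : 0 < a) (he : 0 < e) (z : ℍ) :
    (upperTri a b e ha.ne' he.ne' • z : ℍ).im = (a : ℝ) / e * z.im := by
  have h := congrArg Complex.im (coe_upperTri_smul a b e ha he z)
  rw [UpperHalfPlane.coe_im] at h
  rw [h]
  have he' : (e : ℝ) ≠ 0 := by exact_mod_cast he.ne'
  have : (((a : ℂ) * z + b) / e) = ((((a : ℝ) / e * z.re + (b : ℝ) / e : ℝ) : ℂ) +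
      (((a : ℝ) / e * z.im : ℝ) : ℂ) * Complex.I) := by
    apply Complex.ext
    · simp [Complex.div_re, Complex.normSq]; field_simp
    · simp [Complex.div_im, Complex.normSq]; field_simp
  rw [this]
  simp

/-- growth of `j((a z + b)/e)` at `i∞` -/
theorem isBoundedAtImInfty_kleinJ_upperTri (a b e : ℤ) (ha : 0 < a) (he : 0 < e) (m : ℕ)
    (hm : a ≤ m * e) :
    IsBoundedAtImInfty (qH ^ m * fun z => kleinJ (upperTri a b e ha.ne' he.ne' • z)) := by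
  obtain ⟨M, A, hMA⟩ := isBoundedAtImInfty_iff.mp isQFun_qH_mul_kleinJ.bdd
  have haR : (0 : ℝ) < a := by exact_mod_cast ha
  have heR : (0 : ℝ) < e := by exact_mod_cast he
  rw [isBoundedAtImInfty_iff]
  refine ⟨M, max (A * e / a) 0, fun z hz => ?_⟩
  set w : ℍ := upperTri a b e ha.ne' he.ne' • z with hw
  have himw : w.im = (a : ℝ) / e * z.im := im_upperTri_smul a b e ha he z
  have hz0 : 0 ≤ z.im := z.im_pos.le
  have hA : A ≤ w.im := by
    rw [himw]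
    have h1 : A * e / a ≤ z.im := (le_max_left _ _).trans hz
    rw [div_le_iff₀ haR] at h1
    rw [div_mul_eq_mul_div, le_div_iff₀ heR]
    linarith
  have hb := hMA w hA
  rw [Pi.mul_apply, norm_mul] at hb
  have hqw : ‖qH w‖ = Real.exp (-2 * π * ((a : ℝ) / e * z.im)) := by rw [norm_qH, himw]
  have hqz : ‖qH z ^ m‖ = Real.exp (-2 * π * (m * z.im)) := by
    rw [norm_pow, norm_qH, ← Real.exp_nat_mul]; ring_nf
  rw [Pi.mul_apply, Pi.pow_apply, norm_mul, hqz]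
  have hle : Real.exp (-2 * π * (m * z.im)) ≤ ‖qH w‖ := by
    rw [hqw]
    apply Real.exp_le_exp.mpr
    have hmR : (a : ℝ) ≤ m * e := by exact_mod_cast hm
    have h2 : (a : ℝ) / e ≤ m := by rw [div_le_iff₀ heR]; exact hmR
    have h3 : (a : ℝ) / e * z.im ≤ m * z.im := mul_le_mul_of_nonneg_right h2 hz0
    have hpi : 0 < π := Real.pi_pos
    nlinarith
  calc Real.exp (-2 * π * (m * z.im)) * ‖kleinJ w‖ ≤ ‖qH w‖ * ‖kleinJ w‖ :=
        mul_le_mul_of_nonneg_right hle (norm_nonneg _)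
    _ ≤ M := hb

theorem jd_growth (d : ℕ) [NeZero d] (γ : SL(2, ℤ)) :
    IsBoundedAtImInfty (qH ^ d * fun z => jd d (γ • z)) := by
  obtain ⟨a, b, e, ha, he, hae, h⟩ := jd_smul_eq d γ
  have : (fun z => jd d (γ • z)) = fun z => kleinJ (upperTri a b e ha.ne' he.ne' • z) :=
    funext h
  rw [this]
  refine isBoundedAtImInfty_kleinJ_upperTri a b e ha he d ?_
  have : a ≤ a * e := le_mul_of_one_le_right ha.le he
  calc a ≤ a * e := this
    _ = (d : ℤ) := hae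
    _ ≤ d * e := le_mul_of_one_le_right (by positivity) he

/-! ### Weakly holomorphic modular functions of level `Γ₀(N)` -/

theorem isBoundedAtImInfty_qH_pow (k : ℕ) : IsBoundedAtImInfty (qH ^ k) :=
  (isQFun_qH.pow k).bdd

theorem isBoundedAtImInfty_qH_pow_mul_of_le {m n : ℕ} (hmn : m ≤ n) {f : ℍ → ℂ}
    (hf : IsBoundedAtImInfty (qH ^ m * f)) : IsBoundedAtImInfty (qH ^ n * f) := by
  have h : qH ^ n * f = qH ^ (n - m) * (qH ^ m * f) := by
    rw [← mul_assoc, ← pow_add, Nat.sub_add_cancel hmn]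
  rw [h]
  exact (isBoundedAtImInfty_qH_pow _).mul hf

/-- holomorphic `Γ₀(N)`-invariant functions on `ℍ` all of whose `SL(2,ℤ)`-translates have at most
a pole at `i∞` -/
structure IsWeakModFun (N : ℕ) (h : ℍ → ℂ) : Prop where
  mdiff : MDiff h
  inv : ∀ γ ∈ Gamma0 N, ∀ z : ℍ, h (γ • z) = h z
  growth : ∀ γ : SL(2, ℤ), ∃ m : ℕ, IsBoundedAtImInfty (qH ^ m * fun z => h (γ • z))

namespace IsWeakModFun

variable {N : ℕ} {f g : ℍ → ℂ}

theorem const (N : ℕ) (c : ℂ) : IsWeakModFun N (fun _ => c) :=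
  ⟨mdifferentiable_const, fun _ _ _ => rfl, fun _ => ⟨0, by
    have h : (qH ^ 0 * fun _ : ℍ => c) = Function.const ℍ c := by ext z; simp
    rw [h]
    exact Filter.const_boundedAtFilter atImInfty c⟩⟩

theorem add (hf : IsWeakModFun N f) (hg : IsWeakModFun N g) : IsWeakModFun N (f + g) := by
  refine ⟨hf.mdiff.add hg.mdiff, fun γ hγ z => by
    show f (γ • z) + g (γ • z) = f z + g z
    rw [hf.inv γ hγ z, hg.inv γ hγ z], fun γ => ?_⟩
  obtain ⟨m₁, h₁⟩ := hf.growth γ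
  obtain ⟨m₂, h₂⟩ := hg.growth γ
  refine ⟨max m₁ m₂, ?_⟩
  have e : (qH ^ max m₁ m₂ * fun z => (f + g) (γ • z)) =
      qH ^ max m₁ m₂ * (fun z => f (γ • z)) + qH ^ max m₁ m₂ * (fun z => g (γ • z)) := by
    ext z; simp [mul_add]
  rw [e]
  exact (isBoundedAtImInfty_qH_pow_mul_of_le (le_max_left _ _) h₁).add
    (isBoundedAtImInfty_qH_pow_mul_of_le (le_max_right _ _) h₂)

theorem mul (hf : IsWeakModFun N f) (hg : IsWeakModFun N g) : IsWeakModFun N (f * g) := by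
  refine ⟨hf.mdiff.mul hg.mdiff, fun γ hγ z => by
    show f (γ • z) * g (γ • z) = f z * g z
    rw [hf.inv γ hγ z, hg.inv γ hγ z], fun γ => ?_⟩
  obtain ⟨m₁, h₁⟩ := hf.growth γ
  obtain ⟨m₂, h₂⟩ := hg.growth γ
  refine ⟨m₁ + m₂, ?_⟩
  have e : (qH ^ (m₁ + m₂) * fun z => (f * g) (γ • z)) =
      (qH ^ m₁ * fun z => f (γ • z)) * (qH ^ m₂ * fun z => g (γ • z)) := by
    ext z; simp [pow_add]; ring
  rw [e]
  exact h₁.mul h₂

theorem smul (c : ℂ) (hf : IsWeakModFun N f) : IsWeakModFun N (c • f) := by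
  have : c • f = (fun _ => c) * f := by ext z; simp
  rw [this]
  exact (const N c).mul hf

theorem neg (hf : IsWeakModFun N f) : IsWeakModFun N (-f) := by
  have : -f = (-1 : ℂ) • f := by simp
  rw [this]; exact hf.smul _

theorem sub (hf : IsWeakModFun N f) (hg : IsWeakModFun N g) : IsWeakModFun N (f - g) := by
  rw [sub_eq_add_neg]; exact hf.add hg.neg

theorem pow (hf : IsWeakModFun N f) (n : ℕ) : IsWeakModFun N (f ^ n) := by
  induction n with
  | zero => rw [pow_zero]; exact const N 1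
  | succ n ih => rw [pow_succ]; exact ih.mul hf

theorem jd {d : ℕ} [NeZero d] (hdN : d ∣ N) : IsWeakModFun N (jd d) :=
  ⟨jd_mdiff d, fun γ hγ z => jd_smul_of_mem_Gamma0 hdN γ hγ z, fun γ => ⟨d, jd_growth d γ⟩⟩

end IsWeakModFun

/-- the subalgebra of weakly holomorphic modular functions of level `Γ₀(N)` -/
def weakModFunSubalgebra (N : ℕ) : Subalgebra ℂ (ℍ → ℂ) where
  carrier := {h | IsWeakModFun N h}
  mul_mem' := IsWeakModFun.mul
  add_mem' := IsWeakModFun.add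
  algebraMap_mem' c := IsWeakModFun.const N c

theorem mem_weakModFunSubalgebra {N : ℕ} {h : ℍ → ℂ} :
    h ∈ weakModFunSubalgebra N ↔ IsWeakModFun N h := Iff.rfl

/-- the algebra generated by the `j(d z)`, `d ∣ N` -/
def jdAlgebra (N : ℕ) : Subalgebra ℂ (ℍ → ℂ) :=
  Algebra.adjoin ℂ {h | ∃ (d : ℕ) (_ : NeZero d), d ∣ N ∧ h = jd d}

theorem jdAlgebra_le (N : ℕ) : jdAlgebra N ≤ weakModFunSubalgebra N := by
  refine Algebra.adjoin_le ?_
  rintro h ⟨d, hd, hdN, rfl⟩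
  exact IsWeakModFun.jd hdN

theorem jd_mem_jdAlgebra {N d : ℕ} [NeZero d] (hdN : d ∣ N) : jd d ∈ jdAlgebra N :=
  Algebra.subset_adjoin ⟨d, inferInstance, hdN, rfl⟩

end Fermat.Agent.S24
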