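/-
M3 (S24 cluster), analytic side An4: DISTINCTNESS for `j_N(z) = j(N z)`:
`(∀ z, j_N (γ z) = j_N z) → γ ∈ Γ₀(N)`, hence the `ψ(N)` conjugates `j_N ∘ γ`,
`γ ∈ Γ₀(N) \ SL(2,ℤ)`, are pairwise distinct functions on `ℍ`.
-/
import Mathlib
import Fermat.Agent.S24.WeakModFun

set_option autoImplicit false

open UpperHalfPlane ModularForm EisensteinSeries Filter Topology Function Complex CongruenceSubgroup
open scoped MatrixGroups Manifold Real
open Fermat.Agent.S23 (alphaN mkSL coe_GL_val sl_det_eq val_alphaN)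

namespace Fermat.Agent.S24

/-- a self-map of `ℍ` scaling imaginary parts by a positive constant tends to `i∞` at `i∞` -/
theorem tendsto_atImInfty_of_im_eq {φ : ℍ → ℍ} {c : ℝ} (hc : 0 < c)
    (h : ∀ z, (φ z).im = c * z.im) : Tendsto φ atImInfty atImInfty := by
  rw [atImInfty, tendsto_comap_iff]
  have : (UpperHalfPlane.im ∘ φ) = fun z => c * z.im := funext h
  rw [this]
  exact (tendsto_comap (f := UpperHalfPlane.im)).const_mul_atTop hc

theorem tendsto_norm_qH_mul_kleinJ_comp {φ : ℍ → ℍ} {c : ℝ} (hc : 0 < c)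
    (h : ∀ z, (φ z).im = c * z.im) :
    Tendsto (fun z => Real.exp (-2 * π * (c * z.im)) * ‖kleinJ (φ z)‖) atImInfty (𝓝 1) := by
  have h1 := (tendsto_qH_mul_kleinJ.comp (tendsto_atImInfty_of_im_eq hc h)).norm
  rw [norm_one] at h1
  refine h1.congr fun z => ?_
  simp only [Function.comp_apply, Pi.mul_apply, norm_mul, norm_qH, h z]

/-- comparing growth: if `j ∘ φ₁ = j ∘ φ₂` and `φᵢ` scale imaginary parts by `cᵢ > 0` then
`c₁ = c₂`. -/
theorem scaling_eq_of_kleinJ_comp_eq {φ₁ φ₂ : ℍ → ℍ} {c₁ c₂ : ℝ} (hc₁ : 0 < c₁) (hc₂ : 0 < c₂)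
    (h₁ : ∀ z, (φ₁ z).im = c₁ * z.im) (h₂ : ∀ z, (φ₂ z).im = c₂ * z.im)
    (h : ∀ z, kleinJ (φ₁ z) = kleinJ (φ₂ z)) : c₁ = c₂ := by
  -- it suffices to exclude `c₁ < c₂` for arbitrary such data
  have key : ∀ {ψ₁ ψ₂ : ℍ → ℍ} {d₁ d₂ : ℝ}, 0 < d₁ → 0 < d₂ → (∀ z, (ψ₁ z).im = d₁ * z.im) →
      (∀ z, (ψ₂ z).im = d₂ * z.im) → (∀ z, kleinJ (ψ₁ z) = kleinJ (ψ₂ z)) → ¬ d₁ < d₂ := by
    intro ψ₁ ψ₂ d₁ d₂ hd₁ hd₂ k₁ k₂ k hlt
    have t₁ := tendsto_norm_qH_mul_kleinJ_comp hd₁ k₁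
    have t₂ := tendsto_norm_qH_mul_kleinJ_comp hd₂ k₂
    -- `exp(-2π (d₂ - d₁) im z) → 0`
    have t₀ : Tendsto (fun z : ℍ => Real.exp (-2 * π * ((d₂ - d₁) * z.im))) atImInfty (𝓝 0) := by
      have h3 : Tendsto (fun z : ℍ => (2 * π * (d₂ - d₁)) * z.im) atImInfty atTop :=
        (tendsto_comap (f := UpperHalfPlane.im)).const_mul_atTop
          (mul_pos (mul_pos two_pos Real.pi_pos) (sub_pos.mpr hlt))
      have h4 := Real.tendsto_exp_neg_atTop_nhds_zero.comp h3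
      refine h4.congr fun z => ?_
      simp only [Function.comp_apply]
      congr 1
      ring
    have t₃ := t₀.mul t₁
    rw [zero_mul] at t₃
    have t₄ : Tendsto (fun z => Real.exp (-2 * π * (d₂ * z.im)) * ‖kleinJ (ψ₂ z)‖) atImInfty
        (𝓝 0) := by
      refine t₃.congr fun z => ?_
      rw [← mul_assoc, ← Real.exp_add, k z]
      congr 2
      ring
    exact zero_ne_one (tendsto_nhds_unique t₄ t₂)
  rcases lt_trichotomy c₁ c₂ with hlt | heq | hgt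
  · exact absurd hlt (key hc₁ hc₂ h₁ h₂ h)
  · exact heq
  · exact absurd hgt (key hc₂ hc₁ h₂ h₁ fun z => (h z).symm)

theorem im_alphaN_smul (N : ℕ) [NeZero N] (z : ℍ) : (alphaN N • z : ℍ).im = (N : ℝ) * z.im := by
  have h := congrArg Complex.im (Fermat.Agent.S23.coe_alphaN_smul N z)
  rw [UpperHalfPlane.coe_im] at h
  rw [h]
  simp

/-- **Distinctness** for `j_N`: a `γ ∈ SL(2,ℤ)` fixing `j_N` lies in `Γ₀(N)`. -/
theorem mem_Gamma0_of_jd_smul_eq (N : ℕ) [NeZero N] (γ : SL(2, ℤ))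
    (h : ∀ z, jd N (γ • z) = jd N z) : γ ∈ Gamma0 N := by
  obtain ⟨τ, a, b, e, ha, he, hae, hmat⟩ := exists_hermite N γ
  have haR : (0 : ℝ) < a := by exact_mod_cast ha
  have heR : (0 : ℝ) < e := by exact_mod_cast he
  have hNpos : (0 : ℝ) < N := by exact_mod_cast Nat.pos_of_ne_zero (NeZero.ne N)
  -- `j_N (γ z) = j ((a z + b)/e)`
  have hj : ∀ z : ℍ, kleinJ (upperTri a b e ha.ne' he.ne' • z) = kleinJ (alphaN N • z) := by
    intro z
    have h1 : (alphaN N • (γ • z) : ℍ) = τ • (upperTri a b e ha.ne' he.ne' • z) := by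
      change alphaN N • ((Matrix.SpecialLinearGroup.mapGL ℝ γ) • z) =
        (Matrix.SpecialLinearGroup.mapGL ℝ τ) • (upperTri a b e ha.ne' he.ne' • z)
      rw [← mul_smul, ← mul_smul, hmat]
    have h2 := h z
    rw [jd, h1, kleinJ_smul, jd] at h2
    exact h2
  have hsc : (a : ℝ) / e = N :=
    scaling_eq_of_kleinJ_comp_eq (div_pos haR heR) hNpos (im_upperTri_smul a b e ha he)
      (im_alphaN_smul N) hj
  -- hence `a = N e`, `e = 1`, `a = N`
  have haNe : a = N * e := by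
    have : (a : ℝ) = N * e := by rw [div_eq_iff heR.ne'] at hsc; exact hsc
    exact_mod_cast this
  have he1 : e = 1 := by
    have h3 : (N : ℤ) * (e * e) = N * 1 := by
      calc (N : ℤ) * (e * e) = (N * e) * e := by ring
        _ = a * e := by rw [haNe]
        _ = N * 1 := by rw [hae, mul_one]
    have hN0 : (N : ℤ) ≠ 0 := by exact_mod_cast NeZero.ne N
    have h4 : e * e = 1 := mul_left_cancel₀ hN0 h3
    nlinarith
  have haN : a = N := by rw [haNe, he1, mul_one]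
  -- entry `(1,0)` of the matrix identity: `γ 1 0 = τ 1 0 * a`
  have hent := congrArg (fun M : GL (Fin 2) ℝ => (M : Matrix (Fin 2) (Fin 2) ℝ) 1 0) hmat
  simp only [Matrix.GeneralLinearGroup.coe_mul, coe_GL_val, val_alphaN, val_upperTri] at hent
  simp [Matrix.mul_apply, Fin.sum_univ_two] at hent
  have hdiv : γ 1 0 = τ 1 0 * a := by exact_mod_cast hent
  rw [Gamma0_mem, ZMod.intCast_zmod_eq_zero_iff_dvd, hdiv, haN]
  exact Dvd.intro_left _ rfl

/-- the conjugates `j_N ∘ γ` are indexed faithfully by `Γ₀(N) \ SL(2,ℤ)` -/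
theorem jd_smul_eq_iff (N : ℕ) [NeZero N] (γ γ' : SL(2, ℤ)) :
    (∀ z, jd N (γ • z) = jd N (γ' • z)) ↔ γ * γ'⁻¹ ∈ Gamma0 N := by
  constructor
  · intro h
    apply mem_Gamma0_of_jd_smul_eq
    intro z
    have := h (γ'⁻¹ • z)
    rwa [← mul_smul, ← mul_smul, mul_inv_cancel, one_smul] at this
  · intro h z
    have := jd_smul_of_mem_Gamma0 (dvd_refl N) (γ * γ'⁻¹) h (γ' • z)
    rwa [← mul_smul, inv_mul_cancel_right] at this

end Fermat.Agent.S24
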