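/-
M3 (S24 cluster): the family of "germ" embeddings `φ_{gΓ} : F → ℂ((s))`, indexed by the cosets
`gΓ₀(N)`, of a field `F` of modular functions of level `N`, written once and generically in the
germ map (Taylor germs at a point of `ℍ`, or Laurent germs at a cusp).

Input: a `K`-algebra `A` with fraction field `F`, realised by holomorphic `Γ₀(N)`-invariant
functions on `ℍ` (`an : A →+* (ℍ → ℂ)`), and a "germ map" `germ : (ℍ → ℂ) → ℂ((s))` which is
additive, multiplicative and injective on a class `P` of admissible functions.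
Output: `fam_phi : SL(2,ℤ) ⧸ Γ₀(N) → (F →ₐ[K] ℂ((s)))`, `φ_{gΓ}(a) = germ (an a ∘ g⁻¹)`,
injective, and the behaviour under a "rotation" `σ`.
-/
import Mathlib
import Fermat.Agent.S24.JDistinct
import Fermat.Agent.S24.Comb.Cosets

set_option autoImplicit false

open UpperHalfPlane CongruenceSubgroup
open scoped MatrixGroups

namespace Fermat.Agent.S24

/-! ### The coefficient twist of a Laurent series -/

section Twist

variable {R : Type*} [Field R]

/-- the coefficient twist `∑ aᵢ sⁱ ↦ ∑ lⁱ aᵢ sⁱ` of a Laurent series -/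
noncomputable def fam_twistFun (l : R) (f : HahnSeries ℤ R) : HahnSeries ℤ R where
  coeff i := l ^ i * f.coeff i
  isPWO_support' := f.isPWO_support.mono fun i hi => by
    simp only [Function.mem_support] at hi
    exact right_ne_zero_of_mul hi

@[simp] theorem fam_twistFun_coeff (l : R) (f : HahnSeries ℤ R) (i : ℤ) :
    (fam_twistFun l f).coeff i = l ^ i * f.coeff i := rfl

theorem fam_twistFun_support {l : R} (hl : l ≠ 0) (f : HahnSeries ℤ R) :
    (fam_twistFun l f).support = f.support := by
  ext i
  simp [HahnSeries.mem_support, zpow_ne_zero i hl]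

/-- the coefficient twist as a ring homomorphism -/
noncomputable def fam_twist (l : R) (hl : l ≠ 0) : HahnSeries ℤ R →+* HahnSeries ℤ R where
  toFun := fam_twistFun l
  map_one' := by
    ext i
    simp only [fam_twistFun_coeff, HahnSeries.coeff_one]
    split_ifs with h
    · subst h; simp
    · simp
  map_mul' x y := by
    ext n
    simp only [fam_twistFun_coeff, HahnSeries.coeff_mul, Finset.mul_sum]
    refine Finset.sum_congr (Finset.ext fun ij => ?_) fun ij hij => ?_
    · simp only [Finset.mem_antidiagonal]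
      rw [fam_twistFun_support hl, fam_twistFun_support hl]
    · have hn : ij.1 + ij.2 = n := (Finset.mem_antidiagonal.mp hij).2.2
      rw [← hn, zpow_add₀ hl]
      ring
  map_zero' := by
    ext i
    simp
  map_add' x y := by
    ext i
    simp [mul_add]

@[simp] theorem fam_twist_coeff (l : R) (hl : l ≠ 0) (f : HahnSeries ℤ R) (i : ℤ) :
    (fam_twist l hl f).coeff i = l ^ i * f.coeff i := rfl

end Twist

/-! ### Abstract germ maps and analytic realisations -/

/-- an abstract germ map: additive, multiplicative and injective on a class `P` of admissible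
functions, sending constants to constants -/
structure fam_IsGerm (P : (ℍ → ℂ) → Prop) (germ : (ℍ → ℂ) → LaurentSeries ℂ) : Prop where
  add : ∀ f g, P f → P g → germ (f + g) = germ f + germ g
  mul : ∀ f g, P f → P g → germ (f * g) = germ f * germ g
  const : ∀ c : ℂ, germ (fun _ => c) = HahnSeries.C c
  inj : ∀ f g, P f → P g → germ f = germ g → f = g

/-- an analytic realisation of a `K`-algebra `A` by `Γ₀(N)`-invariant functions on `ℍ`, all of
whose `SL(2,ℤ)`-translates are admissible, containing an element `jN` realised by `z ↦ j(Nz)` -/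
structure fam_IsRealisation {K A : Type*} [Field K] [CommRing A] [Algebra K A] [Algebra K ℂ]
    (N : ℕ) [NeZero N] (P : (ℍ → ℂ) → Prop) (an : A →+* (ℍ → ℂ)) (jN : A) : Prop where
  const : ∀ c : K, an (algebraMap K A c) = fun _ => algebraMap K ℂ c
  inj : Function.Injective an
  inv : ∀ a, ∀ γ ∈ Gamma0 N, ∀ z, an a (γ • z) = an a z
  adm : ∀ a (g : SL(2, ℤ)), P (fun z => an a (g • z))
  jN : an jN = jd N

section Family

set_option linter.unusedSectionVars false

variable {K F A : Type*} [Field K] [Field F] [Algebra K F] [CommRing A] [IsDomain A] [Algebra K A]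
  [Algebra A F] [IsScalarTower K A F] [IsFractionRing A F] [Algebra K ℂ]
variable {N : ℕ} [NeZero N] {P : (ℍ → ℂ) → Prop} {germ : (ℍ → ℂ) → LaurentSeries ℂ}
  {an : A →+* (ℍ → ℂ)} {jN : A}

/-- `a ↦ germ (an a ∘ g⁻¹)` as a ring homomorphism on `A` -/
noncomputable def fam_ringHomA (hG : fam_IsGerm P germ) (hR : fam_IsRealisation (K := K) N P an jN)
    (g : SL(2, ℤ)) : A →+* LaurentSeries ℂ where
  toFun a := germ (fun z => an a (g⁻¹ • z))
  map_one' := by
    rw [map_one]
    exact (hG.const 1).trans (map_one _)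
  map_mul' a b := by
    rw [map_mul]
    exact hG.mul _ _ (hR.adm a g⁻¹) (hR.adm b g⁻¹)
  map_zero' := by
    rw [map_zero]
    exact (hG.const 0).trans (map_zero _)
  map_add' a b := by
    rw [map_add]
    exact hG.add _ _ (hR.adm a g⁻¹) (hR.adm b g⁻¹)

theorem fam_ringHomA_apply (hG : fam_IsGerm P germ) (hR : fam_IsRealisation (K := K) N P an jN)
    (g : SL(2, ℤ)) (a : A) : fam_ringHomA hG hR g a = germ (fun z => an a (g⁻¹ • z)) := rfl

theorem fam_ringHomA_injective (hG : fam_IsGerm P germ)
    (hR : fam_IsRealisation (K := K) N P an jN) (g : SL(2, ℤ)) :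
    Function.Injective (fam_ringHomA hG hR g) := by
  rw [injective_iff_map_eq_zero]
  intro a ha
  rw [fam_ringHomA_apply] at ha
  have h0 : P (fun _ : ℍ => (0 : ℂ)) := by
    have := hR.adm 0 1
    simpa using this
  have h1 : germ (fun _ : ℍ => (0 : ℂ)) = 0 := (hG.const 0).trans (map_zero _)
  have h2 := hG.inj _ _ (hR.adm a g⁻¹) h0 (ha.trans h1.symm)
  apply hR.inj
  rw [map_zero]
  ext z
  have h3 := congrFun h2 (g • z)
  simpa using h3

/-- the embedding `F → ℂ((s))` attached to `g : SL(2,ℤ)` -/
noncomputable def fam_phi0 (hG : fam_IsGerm P germ) (hR : fam_IsRealisation (K := K) N P an jN)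
    (g : SL(2, ℤ)) : F →ₐ[K] LaurentSeries ℂ :=
  { IsFractionRing.lift (fam_ringHomA_injective hG hR g) with
    commutes' := fun c => by
      show IsFractionRing.lift (fam_ringHomA_injective hG hR g) (algebraMap K F c) = _
      rw [IsScalarTower.algebraMap_apply K A F, IsFractionRing.lift_algebraMap,
        fam_ringHomA_apply, hR.const c, HahnSeries.algebraMap_apply', PowerSeries.algebraMap_apply,
        HahnSeries.ofPowerSeries_C]
      exact hG.const _ }

theorem fam_phi0_algebraMap (hG : fam_IsGerm P germ) (hR : fam_IsRealisation (K := K) N P an jN)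
    (g : SL(2, ℤ)) (a : A) :
    fam_phi0 (F := F) hG hR g (algebraMap A F a) = germ (fun z => an a (g⁻¹ • z)) :=
  IsFractionRing.lift_algebraMap (fam_ringHomA_injective hG hR g) a

/-- two `K`-algebra homomorphisms out of `F` which agree on `A` are equal -/
theorem fam_algHom_ext {φ ψ : F →ₐ[K] LaurentSeries ℂ}
    (h : ∀ a : A, φ (algebraMap A F a) = ψ (algebraMap A F a)) : φ = ψ := by
  apply AlgHom.coe_ringHom_injective
  exact IsLocalization.ringHom_ext (nonZeroDivisors A) (RingHom.ext h)

theorem fam_phi0_mul_of_mem (hG : fam_IsGerm P germ) (hR : fam_IsRealisation (K := K) N P an jN)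
    (g γ : SL(2, ℤ)) (hγ : γ ∈ Gamma0 N) :
    fam_phi0 (F := F) hG hR (g * γ) = fam_phi0 hG hR g := by
  refine fam_algHom_ext (A := A) fun a => ?_
  rw [fam_phi0_algebraMap, fam_phi0_algebraMap]
  congr 1
  ext z
  rw [mul_inv_rev, mul_smul]
  exact hR.inv a γ⁻¹ (inv_mem hγ) _

/-- **the family of embeddings** indexed by the cosets `gΓ₀(N)` -/
noncomputable def fam_phi (hG : fam_IsGerm P germ) (hR : fam_IsRealisation (K := K) N P an jN)
    (x : Comb.Q N) : F →ₐ[K] LaurentSeries ℂ :=
  Quotient.liftOn' x (fam_phi0 hG hR) fun g g' h => by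
    have h' : g⁻¹ * g' ∈ Gamma0 N := QuotientGroup.leftRel_apply.mp h
    have : g' = g * (g⁻¹ * g') := by group
    rw [this]
    exact (fam_phi0_mul_of_mem hG hR g _ h').symm

theorem fam_phi_mk (hG : fam_IsGerm P germ) (hR : fam_IsRealisation (K := K) N P an jN)
    (g : SL(2, ℤ)) : fam_phi (F := F) hG hR (g : Comb.Q N) = fam_phi0 hG hR g := rfl

theorem fam_phi_mk_algebraMap (hG : fam_IsGerm P germ)
    (hR : fam_IsRealisation (K := K) N P an jN) (g : SL(2, ℤ)) (a : A) :
    fam_phi (F := F) hG hR (g : Comb.Q N) (algebraMap A F a) = germ (fun z => an a (g⁻¹ • z)) :=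
  fam_phi0_algebraMap hG hR g a

/-- on elements realised by `SL(2,ℤ)`-invariant functions all the embeddings agree -/
theorem fam_phi_of_invariant (hG : fam_IsGerm P germ) (hR : fam_IsRealisation (K := K) N P an jN)
    (a : A) (ha : ∀ (g : SL(2, ℤ)) z, an a (g • z) = an a z) (x : Comb.Q N) :
    fam_phi (F := F) hG hR x (algebraMap A F a) = germ (an a) := by
  induction x using Quotient.inductionOn' with
  | h g =>
    show fam_phi0 hG hR g (algebraMap A F a) = _
    rw [fam_phi0_algebraMap]
    congr 1
    ext z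
    exact ha g⁻¹ z

/-- **the embeddings attached to distinct cosets are distinct** -/
theorem fam_phi_injective (hG : fam_IsGerm P germ) (hR : fam_IsRealisation (K := K) N P an jN) :
    Function.Injective (fam_phi (F := F) hG hR) := by
  intro x y
  induction x using Quotient.inductionOn' with
  | h g =>
  induction y using Quotient.inductionOn' with
  | h g' =>
    intro h
    have h1 : fam_phi0 (F := F) hG hR g (algebraMap A F jN) =
        fam_phi0 (F := F) hG hR g' (algebraMap A F jN) := congrArg (fun φ => φ (algebraMap A F jN)) h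
    rw [fam_phi0_algebraMap, fam_phi0_algebraMap] at h1
    have h2 := hG.inj _ _ (hR.adm jN g⁻¹) (hR.adm jN g'⁻¹) h1
    rw [hR.jN] at h2
    have h3 : g⁻¹ * g'⁻¹⁻¹ ∈ Gamma0 N := (jd_smul_eq_iff N g⁻¹ g'⁻¹).mp fun z => congrFun h2 z
    rw [inv_inv] at h3
    exact QuotientGroup.eq.mpr h3

/-- **rotation**: if precomposition with `σ` twists the germs by `l`, then passing from the
coset `x` to `σ⁻¹ • x` twists the embedding by `l`. -/
theorem fam_phi_twist (hG : fam_IsGerm P germ) (hR : fam_IsRealisation (K := K) N P an jN)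
    (σ : SL(2, ℤ)) (l : ℂ) (hl : l ≠ 0)
    (htw : ∀ h, P h → ∀ i : ℤ, (germ (fun z => h (σ • z))).coeff i = l ^ i * (germ h).coeff i)
    (x : Comb.Q N) (f : F) (i : ℤ) :
    (fam_phi (F := F) hG hR (σ⁻¹ • x) f).coeff i = l ^ i * (fam_phi (F := F) hG hR x f).coeff i := by
  induction x using Quotient.inductionOn' with
  | h g =>
    have key : (fam_phi0 (F := F) hG hR (σ⁻¹ * g) : F →+* LaurentSeries ℂ) =
        (fam_twist l hl).comp (fam_phi0 (F := F) hG hR g : F →+* LaurentSeries ℂ) := by
      refine IsLocalization.ringHom_ext (nonZeroDivisors A) (RingHom.ext fun a => ?_)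
      simp only [RingHom.comp_apply, AlgHom.coe_toRingHom]
      rw [fam_phi0_algebraMap, fam_phi0_algebraMap]
      ext n
      rw [fam_twist_coeff, ← htw _ (hR.adm a g⁻¹) n]
      congr 2
      ext z
      rw [mul_inv_rev, inv_inv, mul_smul]
    have h1 := congrArg (fun ψ : F →+* LaurentSeries ℂ => (ψ f).coeff i) key
    exact h1

end Family

end Fermat.Agent.S24
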