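/-
M3 (S24 cluster): local behaviour of Klein's `j`-function.
`Δ · D j = - E₄² E₆`, the zeros of `j` and `j - 1728`, the local degree of `j` at every point
of the upper half plane, and surjectivity of `j`.
-/
import Mathlib
import Fermat.Agent.S24.KleinJ

set_option autoImplicit false

open UpperHalfPlane ModularForm EisensteinSeries Filter Topology Function Derivative
open scoped MatrixGroups Manifold Real
open Fermat.Agent.S23.QF (IsQFun)

namespace Fermat.Agent.S24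

local notation "Δ" => ModularForm.discriminant
local notation "𝕢" => Periodic.qParam

/-! ### `E₆` as a `q`-function -/

theorem jl_isQFun_E6 : IsQFun (⇑E₆ : ℍ → ℂ) where
  mdiff := ModularFormClass.holo E₆
  periodic := by
    have := SlashInvariantFormClass.periodic_comp_ofComplex E₆ one_mem_strictPeriods_SL
    simpa using this
  bdd := ModularFormClass.bdd_at_infty E₆

theorem jl_valueAtInfty_E6 : valueAtInfty (⇑E₆ : ℍ → ℂ) = 1 := by
  rw [← qExpansion_coeff_zero one_pos jl_isQFun_E6.analyticAt jl_isQFun_E6.periodic',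
    E_qExpansion_coeff (by norm_num) ⟨3, rfl⟩]
  simp

theorem jl_tendsto_E6 : Tendsto (⇑E₆ : ℍ → ℂ) atImInfty (𝓝 1) := by
  simpa [jl_valueAtInfty_E6] using IsQFun.tendsto_valueAtInfty jl_isQFun_E6

/-! ### The normalised derivative of a `q`-function -/

theorem jl_hasDerivAt_qParam (z : ℂ) :
    HasDerivAt (𝕢 1) (𝕢 1 z * (2 * π * Complex.I)) z := by
  have h := (((hasDerivAt_id z).const_mul (2 * π * Complex.I)).div_const ((1 : ℝ) : ℂ)).cexp
  have h2 : (𝕢 1 : ℂ → ℂ) = fun x => Complex.exp (2 * π * Complex.I * x / ((1 : ℝ) : ℂ)) := rfl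
  rw [h2]
  simpa using h

theorem jl_comp_ofComplex_eventuallyEq (F : ℍ → ℂ) (G : ℂ → ℂ) (z : ℍ)
    (h : ∀ w : ℍ, F w = G w) : (F ∘ ofComplex) =ᶠ[𝓝 (z : ℂ)] G := by
  filter_upwards [isOpen_upperHalfPlaneSet.mem_nhds z.im_pos] with w hw
  have hw' : 0 < w.im := hw
  simp only [comp_apply, ofComplex_apply_of_im_pos hw', h]

theorem jl_D_qH : D qH = qH := by
  ext z
  have h1 : (qH ∘ ofComplex) =ᶠ[𝓝 (z : ℂ)] 𝕢 1 :=
    jl_comp_ofComplex_eventuallyEq qH (𝕢 1) z fun w => rfl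
  simp only [normalizedDerivOfComplex]
  rw [h1.deriv_eq, (jl_hasDerivAt_qParam (z : ℂ)).deriv, qH]
  have h2 : (2 * (π : ℂ) * Complex.I) ≠ 0 := Complex.two_pi_I_ne_zero
  field_simp

/-- `D G` in terms of the cusp function of a `q`-function `G`. -/
theorem jl_D_eq_cuspFunction_deriv {G : ℍ → ℂ} (hG : IsQFun G) (τ : ℍ) :
    D G τ = qH τ * deriv (cuspFunction 1 G) (qH τ) := by
  set V := cuspFunction 1 G with hV
  have heq : (G ∘ ofComplex) =ᶠ[𝓝 (τ : ℂ)] fun w : ℂ => V (𝕢 1 w) := by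
    filter_upwards [isOpen_upperHalfPlaneSet.mem_nhds τ.im_pos] with w hw
    have hw' : 0 < w.im := hw
    simp only [comp_apply, ofComplex_apply_of_im_pos hw']
    exact (eq_cuspFunction ⟨w, hw'⟩ one_ne_zero hG.periodic').symm
  have hq1 : ‖𝕢 1 (τ : ℂ)‖ < 1 := Periodic.norm_qParam_lt_one one_pos τ.im_pos
  have hVd : DifferentiableAt ℂ V (𝕢 1 (τ : ℂ)) :=
    differentiableAt_cuspFunction one_pos hG.periodic' hG.mdiff hG.bdd hq1
  have hchain : HasDerivAt (fun w : ℂ => V (𝕢 1 w))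
      (deriv V (𝕢 1 (τ : ℂ)) * (𝕢 1 (τ : ℂ) * (2 * π * Complex.I))) (τ : ℂ) :=
    hVd.hasDerivAt.comp (τ : ℂ) (jl_hasDerivAt_qParam τ)
  simp only [normalizedDerivOfComplex, qH]
  rw [heq.deriv_eq, hchain.deriv]
  have h1 : (2 * (π : ℂ) * Complex.I) ≠ 0 := Complex.two_pi_I_ne_zero
  field_simp

theorem jl_tendsto_D {G : ℍ → ℂ} (hG : IsQFun G) : Tendsto (D G) atImInfty (𝓝 0) := by
  set V := cuspFunction 1 G with hV
  have hVan : AnalyticAt ℂ V 0 := hG.analyticAt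
  have hcont : ContinuousAt (fun q : ℂ => q * deriv V q) 0 :=
    continuousAt_id.mul hVan.deriv.continuousAt
  have h1 : Tendsto (fun τ : ℍ => qH τ * deriv V (qH τ)) atImInfty (𝓝 (0 * deriv V 0)) :=
    hcont.tendsto.comp qH_tendsto
  rw [zero_mul] at h1
  exact h1.congr fun τ => (jl_D_eq_cuspFunction_deriv hG τ).symm

theorem jl_isQFun_D {G : ℍ → ℂ} (hG : IsQFun G) : IsQFun (D G) := by
  refine ⟨normalizedDerivOfComplex_mdifferentiable hG.mdiff, ?_,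
    IsZeroAtImInfty.isBoundedAtImInfty (jl_tendsto_D hG)⟩
  intro w
  by_cases hw : 0 < w.im
  · have hw' : 0 < (w + 1).im := by simpa using hw
    simp only [comp_apply, ofComplex_apply_of_im_pos hw', ofComplex_apply_of_im_pos hw,
      normalizedDerivOfComplex]
    congr 1
    show deriv (G ∘ ofComplex) (w + 1) = deriv (G ∘ ofComplex) w
    have hfun : (fun x : ℂ => (G ∘ ofComplex) (x + 1)) = G ∘ ofComplex :=
      funext fun x => hG.periodic x
    rw [← deriv_comp_add_const, hfun]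
  · have hw0 : w.im ≤ 0 := not_lt.mp hw
    have hw' : (w + 1).im ≤ 0 := by simpa using hw0
    simp [ofComplex_apply_of_im_nonpos hw', ofComplex_apply_of_im_nonpos hw0]

theorem jl_valueAtInfty_D {G : ℍ → ℂ} (hG : IsQFun G) : valueAtInfty (D G) = 0 :=
  IsQFun.valueAtInfty_eq (jl_isQFun_D hG) (jl_tendsto_D hG)

/-! ### `Δ · D j = - E₄² E₆` -/

theorem jl_E6_slash_SL (γ : SL(2, ℤ)) : (⇑E₆ : ℍ → ℂ) ∣[(6 : ℤ)] γ = ⇑E₆ := by
  rw [ModularForm.SL_slash]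
  exact E₆.slash_action_eq' (γ : GL (Fin 2) ℝ) ⟨γ, rfl⟩

theorem jl_D_kleinJ_mul_qH (z : ℍ) :
    D kleinJ z * qH z = D (qH * kleinJ) z - (qH * kleinJ) z := by
  have h := congrFun (normalizedDerivOfComplex_mul qH kleinJ qH_mdiff kleinJ_mdiff) z
  rw [jl_D_qH] at h
  simp only [Pi.add_apply, Pi.mul_apply] at h ⊢
  rw [h]
  ring

/-- the numerator of `q · Δ⁻¹ · (Δ · D j + E₄² E₆)` -/
noncomputable def jl_numer : ℍ → ℂ :=
  (D (qH * kleinJ) - qH * kleinJ) * etaProdH + (⇑E₄ : ℍ → ℂ) ^ 2 * ⇑E₆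

theorem jl_isQFun_numer : IsQFun jl_numer :=
  (((jl_isQFun_D isQFun_qH_mul_kleinJ).sub isQFun_qH_mul_kleinJ).mul isQFun_etaProdH).add
    ((isQFun_E4.pow 2).mul jl_isQFun_E6)

theorem jl_tendsto_numer : Tendsto jl_numer atImInfty (𝓝 0) := by
  have h := (((jl_tendsto_D isQFun_qH_mul_kleinJ).sub tendsto_qH_mul_kleinJ).mul
    tendsto_etaProdH).add ((tendsto_E4.pow 2).mul jl_tendsto_E6)
  have h0 : ((0 : ℂ) - 1) * 1 + 1 ^ 2 * 1 = 0 := by norm_num
  rw [h0] at h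
  refine h.congr fun z => ?_
  simp [jl_numer]

/-- the weight two function `D j + E₄² E₆ / Δ`, which will turn out to vanish -/
noncomputable def jl_h : ℍ → ℂ := D kleinJ + ((⇑E₄ : ℍ → ℂ) ^ 2 * ⇑E₆) / (Δ : ℍ → ℂ)

theorem jl_h_eq : jl_h = (jl_numer / qH) / etaProdH := by
  ext z
  have hq := qH_ne_zero z
  have hd := discriminant_ne_zero z
  have h1 := jl_D_kleinJ_mul_qH z
  simp only [jl_h, jl_numer, etaProdH, Pi.add_apply, Pi.mul_apply, Pi.div_apply, Pi.sub_apply,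
    Pi.pow_apply] at h1 ⊢
  rw [← h1]
  field_simp

theorem jl_h_bdd : IsBoundedAtImInfty jl_h := by
  rw [jl_h_eq]
  have h0 : valueAtInfty jl_numer = 0 := IsQFun.valueAtInfty_eq jl_isQFun_numer jl_tendsto_numer
  exact (IsQFun.div (IsQFun.div_qH jl_isQFun_numer h0) isQFun_etaProdH etaProdH_ne_zero
    (by rw [valueAtInfty_etaProdH]; exact one_ne_zero)).bdd

theorem jl_h_mdiff : MDiff jl_h :=
  (normalizedDerivOfComplex_mdifferentiable kleinJ_mdiff).add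
    (MDifferentiable.div (((ModularFormClass.holo E₄).pow 2).mul (ModularFormClass.holo E₆))
      mdiff_discriminant discriminant_ne_zero)

theorem jl_D_kleinJ_slash (γ : SL(2, ℤ)) : D kleinJ ∣[(2 : ℤ)] γ = D kleinJ := by
  have h := normalizedDerivOfComplex_SL_slash (k := 0) kleinJ_mdiff (γ := γ)
  rw [kleinJ_slash] at h
  have h2 : (fun z : ℍ => ((0 : ℤ) : ℂ) * (2 * π * Complex.I)⁻¹ * (γ 1 0 / denom γ z) * kleinJ z)
      = 0 := by
    ext z
    simp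
  rw [h2, sub_zero, zero_add] at h
  exact h.symm

theorem jl_h_slash (γ : SL(2, ℤ)) : jl_h ∣[(2 : ℤ)] γ = jl_h := by
  unfold jl_h
  rw [SlashAction.add_slash, jl_D_kleinJ_slash]
  congr 1
  have h := ModularForm.div_slash_SL2 14 12 γ ((⇑E₄ : ℍ → ℂ) ^ 2 * ⇑E₆) (Δ : ℍ → ℂ)
  rw [show (14 : ℤ) - 12 = 2 by norm_num] at h
  rw [h, discriminant_slash_SL]
  congr 1
  have h3 : (⇑E₄ : ℍ → ℂ) ^ 2 * ⇑E₆ = ⇑E₄ * (⇑E₄ * ⇑E₆) := by ring
  rw [h3, show (14 : ℤ) = 4 + (4 + 6) by norm_num, ModularForm.mul_slash_SL2,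
    ModularForm.mul_slash_SL2, E4_slash_SL, jl_E6_slash_SL]

/-- `D j + E₄² E₆ / Δ` as a modular form of weight `2` and level one -/
noncomputable def jl_hForm : ModularForm 𝒮ℒ 2 where
  toFun := jl_h
  slash_action_eq' γ hγ := by
    obtain ⟨g, rfl⟩ := hγ
    exact jl_h_slash g
  holo' := jl_h_mdiff
  bdd_at_cusps' := fun {c} hc => by
    rw [OnePoint.isBoundedAt_iff_forall_SL2Z hc]
    intro γ _
    rw [jl_h_slash γ]
    exact jl_h_bdd

theorem jl_h_eq_zero (z : ℍ) : jl_h z = 0 := by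
  have h0 : jl_hForm = 0 := rank_zero_iff_forall_zero.mp levelOne_weight_two_rank_zero jl_hForm
  have h1 : jl_hForm z = 0 := by rw [h0]; rfl
  exact h1

/-- **The derivative of `j`**: `Δ · D j = - E₄² E₆`. -/
theorem jl_discriminant_mul_D_kleinJ (z : ℍ) : Δ z * D kleinJ z = -(E₄ z ^ 2 * E₆ z) := by
  have h := jl_h_eq_zero z
  have hd := discriminant_ne_zero z
  simp only [jl_h, Pi.add_apply, Pi.mul_apply, Pi.div_apply, Pi.pow_apply] at h
  have h2 : D kleinJ z = -(E₄ z ^ 2 * E₆ z / Δ z) := eq_neg_of_add_eq_zero_left h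
  rw [h2]
  field_simp

/-! ### The elliptic points and the zeros of `E₄`, `E₆` -/

theorem jl_S_smul_I : ModularGroup.S • UpperHalfPlane.I = UpperHalfPlane.I :=
  ModularGroup.stabilizer_I.mpr (by simp)

theorem jl_ST_smul_rho : (ModularGroup.S * ModularGroup.T) • ρ = ρ :=
  ModularGroup.stabilizer_ρ.mpr (by simp)

theorem jl_E6_I : E₆ UpperHalfPlane.I = 0 := by
  have h := congrFun (jl_E6_slash_SL ModularGroup.S) UpperHalfPlane.I
  rw [ModularForm.SL_slash_apply, jl_S_smul_I, ModularGroup.denom_S, UpperHalfPlane.coe_I] at h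
  have h6 : (Complex.I : ℂ) ^ (-(6 : ℤ)) = -1 := by
    rw [zpow_neg, show (6 : ℤ) = ((6 : ℕ) : ℤ) by norm_num, zpow_natCast,
      show (6 : ℕ) = 2 * 3 by norm_num, pow_mul, Complex.I_sq]
    norm_num
  rw [h6] at h
  have h2 : (2 : ℂ) * E₆ UpperHalfPlane.I = 0 := by linear_combination -h
  simpa using h2

theorem jl_denom_ST_rho :
    denom ((ModularGroup.S * ModularGroup.T : SL(2, ℤ)) : GL (Fin 2) ℝ) ρ = (ρ : ℂ) + 1 := by
  simp [denom, ModularGroup.S, ModularGroup.T, Matrix.mul_apply, Fin.sum_univ_two]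

theorem jl_E4_rho : E₄ ρ = 0 := by
  have h := congrFun (E4_slash_SL (ModularGroup.S * ModularGroup.T)) ρ
  rw [ModularForm.SL_slash_apply, jl_ST_smul_rho, jl_denom_ST_rho] at h
  have h1 : ((ρ : ℂ) + 1) ^ 2 = ρ := by
    have := ρ_sq
    linear_combination this
  have h4 : ((ρ : ℂ) + 1) ^ (4 : ℕ) = -ρ - 1 := by
    rw [show (4 : ℕ) = 2 * 2 by norm_num, pow_mul, h1, ρ_sq]
  have hne : ((ρ : ℂ) + 1) ≠ 0 := by
    intro h0
    have := congrArg Complex.im h0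
    simp at this
    exact (UpperHalfPlane.im_pos ρ).ne' this
  by_contra hE
  have h5 : ((ρ : ℂ) + 1) ^ (-(4 : ℤ)) = 1 := by
    have := mul_left_cancel₀ hE (h.trans (mul_one _).symm)
    exact this
  rw [zpow_neg, inv_eq_one, show (4 : ℤ) = ((4 : ℕ) : ℤ) by norm_num, zpow_natCast, h4] at h5
  have := congrArg Complex.im h5
  simp at this
  exact (UpperHalfPlane.im_pos ρ).ne' this

theorem jl_E4_ne_zero_of_E6 {z : ℍ} (h : E₆ z = 0) : E₄ z ≠ 0 := by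
  intro h4
  have h1 := discriminant_eq_E₄_cube_sub_E₆_sq z
  rw [h, h4] at h1
  exact discriminant_ne_zero z (by simpa using h1)

theorem jl_E6_ne_zero_of_E4 {z : ℍ} (h : E₄ z = 0) : E₆ z ≠ 0 := fun h6 =>
  jl_E4_ne_zero_of_E6 h6 h

/-! ### Zeros of `j` and of `j - 1728` -/

theorem jl_kleinJ_eq_zero_iff (z : ℍ) : kleinJ z = 0 ↔ E₄ z = 0 := by
  simp [kleinJ, discriminant_ne_zero z]

theorem jl_kleinJ_sub_1728 (z : ℍ) : kleinJ z - 1728 = E₆ z ^ 2 / Δ z := by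
  have hd := discriminant_ne_zero z
  have h := discriminant_eq_E₄_cube_sub_E₆_sq z
  rw [kleinJ, eq_div_iff hd, sub_mul, div_mul_cancel₀ _ hd]
  rw [h]
  ring

theorem jl_kleinJ_eq_1728_iff (z : ℍ) : kleinJ z = 1728 ↔ E₆ z = 0 := by
  rw [← sub_eq_zero, jl_kleinJ_sub_1728]
  simp [discriminant_ne_zero z]

theorem jl_kleinJ_I : kleinJ UpperHalfPlane.I = 1728 := (jl_kleinJ_eq_1728_iff _).mpr jl_E6_I

theorem jl_kleinJ_rho : kleinJ ρ = 0 := (jl_kleinJ_eq_zero_iff _).mpr jl_E4_rho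

/-! ### Analytic orders on the upper half plane -/

theorem jl_analyticAt_comp_ofComplex {F : ℍ → ℂ} (hF : MDiff F) (z : ℍ) :
    AnalyticAt ℂ (F ∘ ofComplex) (z : ℂ) :=
  DifferentiableOn.analyticAt (UpperHalfPlane.mdifferentiable_iff.mp hF)
    (isOpen_upperHalfPlaneSet.mem_nhds z.im_pos)

theorem jl_analyticOnNhd_comp_ofComplex {F : ℍ → ℂ} (hF : MDiff F) :
    AnalyticOnNhd ℂ (F ∘ ofComplex) upperHalfPlaneSet := fun w hw =>
  jl_analyticAt_comp_ofComplex hF ⟨w, hw⟩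

theorem jl_order_eq_zero {F : ℍ → ℂ} (hF : MDiff F) {z : ℍ} (h : F z ≠ 0) :
    analyticOrderAt (F ∘ ofComplex) (z : ℂ) = 0 := by
  rw [(jl_analyticAt_comp_ofComplex hF z).analyticOrderAt_eq_zero]
  simpa [ofComplex_apply] using h

theorem jl_order_pos {F : ℍ → ℂ} (hF : MDiff F) {z : ℍ} (h : F z = 0) :
    analyticOrderAt (F ∘ ofComplex) (z : ℂ) ≠ 0 := by
  rw [(jl_analyticAt_comp_ofComplex hF z).analyticOrderAt_ne_zero]
  simpa [ofComplex_apply] using h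

/-- a holomorphic function on `ℍ` which is not identically zero has finite order everywhere -/
theorem jl_order_ne_top {F : ℍ → ℂ} (hF : MDiff F) {z1 : ℍ} (h1 : F z1 ≠ 0) (z : ℍ) :
    analyticOrderAt (F ∘ ofComplex) (z : ℂ) ≠ ⊤ := by
  refine (jl_analyticOnNhd_comp_ofComplex hF).analyticOrderAt_ne_top_of_isPreconnected
    (convex_halfSpace_im_gt 0).isPreconnected z1.im_pos z.im_pos ?_
  rw [jl_order_eq_zero hF h1]
  exact ENat.zero_ne_top

theorem jl_deriv_mul_discriminant (z0 : ℍ) :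
    (deriv (kleinJ ∘ ofComplex) * ((Δ : ℍ → ℂ) ∘ ofComplex)) =ᶠ[𝓝 (z0 : ℂ)]
      (fun _ => -(2 * π * Complex.I)) *
        (((⇑E₄ : ℍ → ℂ) ∘ ofComplex) ^ 2 * ((⇑E₆ : ℍ → ℂ) ∘ ofComplex)) := by
  filter_upwards [isOpen_upperHalfPlaneSet.mem_nhds z0.im_pos] with w hw
  have hw' : 0 < w.im := hw
  have h := jl_discriminant_mul_D_kleinJ ⟨w, hw'⟩
  simp only [normalizedDerivOfComplex] at h
  simp only [Pi.mul_apply, comp_apply, Pi.pow_apply, ofComplex_apply_of_im_pos hw']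
  have h1 : (2 * (π : ℂ) * Complex.I) ≠ 0 := Complex.two_pi_I_ne_zero
  have h2 : deriv (kleinJ ∘ ofComplex) w * Δ (⟨w, hw'⟩ : ℍ) =
      (2 * π * Complex.I) * (Δ (⟨w, hw'⟩ : ℍ) *
        ((2 * π * Complex.I)⁻¹ * deriv (kleinJ ∘ ofComplex) w)) := by
    field_simp
  rw [h2, h]
  ring

theorem jl_order_deriv (z0 : ℍ) :
    analyticOrderAt (deriv (kleinJ ∘ ofComplex)) (z0 : ℂ) =
      2 • analyticOrderAt ((⇑E₄ : ℍ → ℂ) ∘ ofComplex) (z0 : ℂ) +
        analyticOrderAt ((⇑E₆ : ℍ → ℂ) ∘ ofComplex) (z0 : ℂ) := by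
  have hJ := jl_analyticAt_comp_ofComplex kleinJ_mdiff z0
  have hΔ := jl_analyticAt_comp_ofComplex mdiff_discriminant z0
  have h4 := jl_analyticAt_comp_ofComplex (ModularFormClass.holo E₄) z0
  have h6 := jl_analyticAt_comp_ofComplex (ModularFormClass.holo E₆) z0
  have hc : analyticOrderAt (fun _ : ℂ => -(2 * (π : ℂ) * Complex.I)) (z0 : ℂ) = 0 := by
    rw [analyticAt_const.analyticOrderAt_eq_zero]
    exact neg_ne_zero.mpr Complex.two_pi_I_ne_zero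
  have h := analyticOrderAt_congr (jl_deriv_mul_discriminant z0)
  rw [analyticOrderAt_mul hJ.deriv hΔ,
    jl_order_eq_zero mdiff_discriminant (discriminant_ne_zero z0), add_zero,
    analyticOrderAt_mul analyticAt_const ((h4.pow 2).mul h6), hc, zero_add,
    analyticOrderAt_mul (h4.pow 2) h6, analyticOrderAt_pow h4] at h
  exact h

/-- the local degree (ramification index) of `j` at a point `z0` of the upper half plane -/
noncomputable def jl_ordJ (z0 : ℍ) : ℕ∞ :=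
  analyticOrderAt (fun w : ℂ => kleinJ (ofComplex w) - kleinJ z0) (z0 : ℂ)

theorem jl_ordJ_eq (z0 : ℍ) :
    jl_ordJ z0 = 2 • analyticOrderAt ((⇑E₄ : ℍ → ℂ) ∘ ofComplex) (z0 : ℂ) +
        analyticOrderAt ((⇑E₆ : ℍ → ℂ) ∘ ofComplex) (z0 : ℂ) + 1 := by
  have hJ := jl_analyticAt_comp_ofComplex kleinJ_mdiff z0
  have h := hJ.analyticOrderAt_deriv_add_one
  rw [jl_order_deriv] at h
  simp only [comp_apply, ofComplex_apply] at h
  exact h.symm

/-- away from the zeros of `E₄` and `E₆` the function `j` is a local coordinate -/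
theorem jl_order_generic {z0 : ℍ} (h4 : E₄ z0 ≠ 0) (h6 : E₆ z0 ≠ 0) : jl_ordJ z0 = 1 := by
  rw [jl_ordJ_eq, jl_order_eq_zero (ModularFormClass.holo E₄) h4,
    jl_order_eq_zero (ModularFormClass.holo E₆) h6]
  simp

theorem jl_kleinJ_mul_discriminant :
    (kleinJ ∘ ofComplex) * ((Δ : ℍ → ℂ) ∘ ofComplex) = ((⇑E₄ : ℍ → ℂ) ∘ ofComplex) ^ 3 := by
  ext w
  simp only [Pi.mul_apply, comp_apply, Pi.pow_apply, kleinJ]
  exact div_mul_cancel₀ _ (discriminant_ne_zero _)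

theorem jl_kleinJ_sub_mul_discriminant :
    ((fun z => kleinJ z - 1728) ∘ ofComplex) * ((Δ : ℍ → ℂ) ∘ ofComplex) =
      ((⇑E₆ : ℍ → ℂ) ∘ ofComplex) ^ 2 := by
  ext w
  simp only [Pi.mul_apply, comp_apply, Pi.pow_apply, jl_kleinJ_sub_1728]
  exact div_mul_cancel₀ _ (discriminant_ne_zero _)

theorem jl_order_kleinJ (z0 : ℍ) :
    analyticOrderAt (kleinJ ∘ ofComplex) (z0 : ℂ) =
      3 • analyticOrderAt ((⇑E₄ : ℍ → ℂ) ∘ ofComplex) (z0 : ℂ) := by
  have hJ := jl_analyticAt_comp_ofComplex kleinJ_mdiff z0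
  have hΔ := jl_analyticAt_comp_ofComplex mdiff_discriminant z0
  have h4 := jl_analyticAt_comp_ofComplex (ModularFormClass.holo E₄) z0
  have h := congrArg (fun f => analyticOrderAt f (z0 : ℂ)) jl_kleinJ_mul_discriminant
  beta_reduce at h
  rw [analyticOrderAt_mul hJ hΔ, jl_order_eq_zero mdiff_discriminant (discriminant_ne_zero z0),
    add_zero, analyticOrderAt_pow h4] at h
  exact h

theorem jl_order_kleinJ_sub (z0 : ℍ) :
    analyticOrderAt ((fun z => kleinJ z - 1728) ∘ ofComplex) (z0 : ℂ) =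
      2 • analyticOrderAt ((⇑E₆ : ℍ → ℂ) ∘ ofComplex) (z0 : ℂ) := by
  have hm : MDiff (fun z => kleinJ z - 1728) :=
    kleinJ_mdiff.sub (mdifferentiable_const (c := (1728 : ℂ)))
  have hJ := jl_analyticAt_comp_ofComplex hm z0
  have hΔ := jl_analyticAt_comp_ofComplex mdiff_discriminant z0
  have h6 := jl_analyticAt_comp_ofComplex (ModularFormClass.holo E₆) z0
  have h := congrArg (fun f => analyticOrderAt f (z0 : ℂ)) jl_kleinJ_sub_mul_discriminant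
  beta_reduce at h
  rw [analyticOrderAt_mul hJ hΔ, jl_order_eq_zero mdiff_discriminant (discriminant_ne_zero z0),
    add_zero, analyticOrderAt_pow h6] at h
  exact h

/-- zeros of `E₄` are simple, and `j` has local degree `3` there -/
theorem jl_order_E4_and_ordJ {z0 : ℍ} (h : E₄ z0 = 0) :
    analyticOrderAt ((⇑E₄ : ℍ → ℂ) ∘ ofComplex) (z0 : ℂ) = 1 ∧ jl_ordJ z0 = 3 := by
  have h6 := jl_E6_ne_zero_of_E4 h
  have hj0 : kleinJ z0 = 0 := (jl_kleinJ_eq_zero_iff z0).mpr h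
  have e1 := jl_ordJ_eq z0
  rw [jl_order_eq_zero (ModularFormClass.holo E₆) h6, add_zero] at e1
  have e2 : jl_ordJ z0 = 3 • analyticOrderAt ((⇑E₄ : ℍ → ℂ) ∘ ofComplex) (z0 : ℂ) := by
    rw [← jl_order_kleinJ]
    unfold jl_ordJ
    rw [hj0]
    congr 1
    ext w
    simp
  have hne : analyticOrderAt ((⇑E₄ : ℍ → ℂ) ∘ ofComplex) (z0 : ℂ) ≠ ⊤ :=
    jl_order_ne_top (ModularFormClass.holo E₄) (jl_E4_ne_zero_of_E6 jl_E6_I) z0
  obtain ⟨n, hn⟩ := ENat.ne_top_iff_exists.mp hne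
  rw [← hn] at e1 e2 ⊢
  rw [e2] at e1
  have e3 : 3 * n = 2 * n + 1 := by
    have : ((3 * n : ℕ) : ℕ∞) = ((2 * n + 1 : ℕ) : ℕ∞) := by
      push_cast
      simpa [nsmul_eq_mul] using e1
    exact_mod_cast this
  have hn1 : n = 1 := by omega
  subst hn1
  refine ⟨rfl, ?_⟩
  rw [e2]
  norm_num

theorem jl_order_of_E4 {z0 : ℍ} (h : E₄ z0 = 0) : jl_ordJ z0 = 3 := (jl_order_E4_and_ordJ h).2

theorem jl_order_E4_of_zero {z0 : ℍ} (h : E₄ z0 = 0) :
    analyticOrderAt ((⇑E₄ : ℍ → ℂ) ∘ ofComplex) (z0 : ℂ) = 1 := (jl_order_E4_and_ordJ h).1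

/-- zeros of `E₆` are simple, and `j` has local degree `2` there -/
theorem jl_order_E6_and_ordJ {z0 : ℍ} (h : E₆ z0 = 0) :
    analyticOrderAt ((⇑E₆ : ℍ → ℂ) ∘ ofComplex) (z0 : ℂ) = 1 ∧ jl_ordJ z0 = 2 := by
  have h4 := jl_E4_ne_zero_of_E6 h
  have hj0 : kleinJ z0 = 1728 := (jl_kleinJ_eq_1728_iff z0).mpr h
  have e1 := jl_ordJ_eq z0
  rw [jl_order_eq_zero (ModularFormClass.holo E₄) h4, smul_zero, zero_add] at e1
  have e2 : jl_ordJ z0 = 2 • analyticOrderAt ((⇑E₆ : ℍ → ℂ) ∘ ofComplex) (z0 : ℂ) := by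
    rw [← jl_order_kleinJ_sub]
    unfold jl_ordJ
    rw [hj0]
    rfl
  have hne : analyticOrderAt ((⇑E₆ : ℍ → ℂ) ∘ ofComplex) (z0 : ℂ) ≠ ⊤ :=
    jl_order_ne_top (ModularFormClass.holo E₆) (jl_E6_ne_zero_of_E4 jl_E4_rho) z0
  obtain ⟨n, hn⟩ := ENat.ne_top_iff_exists.mp hne
  rw [← hn] at e1 e2 ⊢
  rw [e2] at e1
  have e3 : 2 * n = n + 1 := by
    have : ((2 * n : ℕ) : ℕ∞) = ((n + 1 : ℕ) : ℕ∞) := by
      push_cast
      simpa [nsmul_eq_mul] using e1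
    exact_mod_cast this
  have hn1 : n = 1 := by omega
  subst hn1
  refine ⟨rfl, ?_⟩
  rw [e2]
  norm_num

theorem jl_order_of_E6 {z0 : ℍ} (h : E₆ z0 = 0) : jl_ordJ z0 = 2 := (jl_order_E6_and_ordJ h).2

theorem jl_order_E6_of_zero {z0 : ℍ} (h : E₆ z0 = 0) :
    analyticOrderAt ((⇑E₆ : ℍ → ℂ) ∘ ofComplex) (z0 : ℂ) = 1 := (jl_order_E6_and_ordJ h).1

theorem jl_ordJ_I : jl_ordJ UpperHalfPlane.I = 2 := jl_order_of_E6 jl_E6_I

theorem jl_ordJ_rho : jl_ordJ ρ = 3 := jl_order_of_E4 jl_E4_rho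

/-- the local degree of `j` is always `1`, `2` or `3` -/
theorem jl_ordJ_cases (z0 : ℍ) :
    (E₄ z0 ≠ 0 ∧ E₆ z0 ≠ 0 ∧ jl_ordJ z0 = 1) ∨ (E₄ z0 = 0 ∧ jl_ordJ z0 = 3) ∨
      (E₆ z0 = 0 ∧ jl_ordJ z0 = 2) := by
  by_cases h4 : E₄ z0 = 0
  · exact Or.inr (Or.inl ⟨h4, jl_order_of_E4 h4⟩)
  · by_cases h6 : E₆ z0 = 0
    · exact Or.inr (Or.inr ⟨h6, jl_order_of_E6 h6⟩)
    · exact Or.inl ⟨h4, h6, jl_order_generic h4 h6⟩

/-- the derivative of `j` vanishes exactly at the zeros of `E₄` and `E₆` -/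
theorem jl_deriv_kleinJ_ne_zero {z : ℍ} (h4 : E₄ z ≠ 0) (h6 : E₆ z ≠ 0) :
    deriv (kleinJ ∘ ofComplex) (z : ℂ) ≠ 0 := by
  intro h0
  have h := jl_discriminant_mul_D_kleinJ z
  simp only [normalizedDerivOfComplex, h0, mul_zero] at h
  have : E₄ z ^ 2 * E₆ z = 0 := by
    have := h.symm
    simpa using this
  rcases mul_eq_zero.mp this with h' | h'
  · exact h4 ((pow_eq_zero_iff (two_ne_zero)).mp h')
  · exact h6 h'

/-! ### Surjectivity of `j` -/

/-- **`j : ℍ → ℂ` is surjective.** -/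
theorem jl_exists_kleinJ_eq (c : ℂ) : ∃ z : ℍ, kleinJ z = c := by
  by_contra hne
  simp only [not_exists] at hne
  have hne' : ∀ z, kleinJ z - c ≠ 0 := fun z => sub_ne_zero.mpr (hne z)
  set g : ℍ → ℂ := fun z => (kleinJ z - c)⁻¹ with hg
  have hden : IsQFun (qH * kleinJ - c • qH) := isQFun_qH_mul_kleinJ.sub (isQFun_qH.smul c)
  have hden0 : ∀ z, (qH * kleinJ - c • qH) z ≠ 0 := fun z => by
    have : (qH * kleinJ - c • qH) z = qH z * (kleinJ z - c) := by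
      simp only [Pi.sub_apply, Pi.mul_apply, Pi.smul_apply, smul_eq_mul]
      ring
    rw [this]
    exact mul_ne_zero (qH_ne_zero z) (hne' z)
  have hdent : Tendsto (qH * kleinJ - c • qH) atImInfty (𝓝 1) := by
    have h := tendsto_qH_mul_kleinJ.sub (qH_tendsto.const_mul c)
    rw [mul_zero, sub_zero] at h
    refine h.congr fun z => ?_
    simp
  have hdenv : valueAtInfty (qH * kleinJ - c • qH) = 1 := IsQFun.valueAtInfty_eq hden hdent
  have hgQ : IsQFun (qH / (qH * kleinJ - c • qH)) :=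
    IsQFun.div isQFun_qH hden hden0 (by rw [hdenv]; exact one_ne_zero)
  have hgeq : g = qH / (qH * kleinJ - c • qH) := by
    ext z
    have h1 := qH_ne_zero z
    have h2 := hne' z
    simp only [hg, Pi.div_apply, Pi.sub_apply, Pi.mul_apply, Pi.smul_apply, smul_eq_mul]
    field_simp
  have hgt : Tendsto g atImInfty (𝓝 0) := by
    rw [hgeq]
    have h := qH_tendsto.div hdent one_ne_zero
    rw [zero_div] at h
    exact h
  have hgm : MDiff g := by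
    have h1 : MDiff (fun z => kleinJ z - c) :=
      kleinJ_mdiff.sub (mdifferentiable_const (c := c))
    have h2 : MDiff (fun _ : ℍ => (1 : ℂ)) := mdifferentiable_const
    have h3 := MDifferentiable.div h2 h1 hne'
    have h4 : ((fun _ : ℍ => (1 : ℂ)) / fun z => kleinJ z - c) = g := by
      ext z
      simp [hg]
    rwa [h4] at h3
  have hgW : IsWeakLevelOne 0 g := by
    refine ⟨hgm, fun γ z => ?_, ?_⟩
    · simp only [hg, kleinJ_smul γ z]
    · rw [pow_zero, one_mul, hgeq]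
      exact hgQ.bdd
  obtain ⟨P, hP, hPe⟩ := exists_polynomial_of_isWeakLevelOne 0 g hgW
  have hPC : P = Polynomial.C (P.coeff 0) := Polynomial.eq_C_of_natDegree_le_zero hP
  have hconst : ∀ z, g z = P.coeff 0 := fun z => by
    rw [hPe z, hPC]
    simp
  have ha : P.coeff 0 = 0 :=
    tendsto_nhds_unique (tendsto_const_nhds.congr fun z => (hconst z).symm) hgt
  exact inv_ne_zero (hne' UpperHalfPlane.I) ((hconst _).trans ha)

/-- local normal form of `j` at a point of the upper half plane: `j(w) - j(z₀) = (w - z₀)^e u(w)`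
with `u(z₀) ≠ 0` and `e = 1, 2, 3`. -/
theorem jl_local_form (z0 : ℍ) :
    ∃ (e : ℕ) (u : ℂ → ℂ), (e = 1 ∨ e = 2 ∨ e = 3) ∧ jl_ordJ z0 = e ∧ AnalyticAt ℂ u (z0 : ℂ) ∧
      u (z0 : ℂ) ≠ 0 ∧
      ∀ᶠ w in 𝓝 (z0 : ℂ), kleinJ (ofComplex w) - kleinJ z0 = (w - (z0 : ℂ)) ^ e * u w := by
  have hA : AnalyticAt ℂ (fun w : ℂ => kleinJ (ofComplex w) - kleinJ z0) (z0 : ℂ) :=
    (jl_analyticAt_comp_ofComplex kleinJ_mdiff z0).sub analyticAt_const
  have key : ∀ e : ℕ, jl_ordJ z0 = e → ∃ u : ℂ → ℂ, AnalyticAt ℂ u (z0 : ℂ) ∧ u (z0 : ℂ) ≠ 0 ∧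
      ∀ᶠ w in 𝓝 (z0 : ℂ), kleinJ (ofComplex w) - kleinJ z0 = (w - (z0 : ℂ)) ^ e * u w := by
    intro e he
    obtain ⟨u, hu, hu0, huw⟩ := (hA.analyticOrderAt_eq_natCast).mp he
    exact ⟨u, hu, hu0, by simpa [smul_eq_mul] using huw⟩
  rcases jl_ordJ_cases z0 with ⟨-, -, h⟩ | ⟨-, h⟩ | ⟨-, h⟩
  · obtain ⟨u, h1, h2, h3⟩ := key 1 (by rw [h]; rfl)
    exact ⟨1, u, Or.inl rfl, by rw [h]; rfl, h1, h2, h3⟩
  · obtain ⟨u, h1, h2, h3⟩ := key 3 (by rw [h]; rfl)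
    exact ⟨3, u, Or.inr (Or.inr rfl), by rw [h]; rfl, h1, h2, h3⟩
  · obtain ⟨u, h1, h2, h3⟩ := key 2 (by rw [h]; rfl)
    exact ⟨2, u, Or.inr (Or.inl rfl), by rw [h]; rfl, h1, h2, h3⟩

end Fermat.Agent.S24
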