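/-
M3 (S24 cluster): the families of Taylor-germ embeddings of `modularFunctionFieldBar N` into
`ℂ((w))` at the points of the upper half plane over a finite value `c` of `j`:
generic `c`, `c = 0` (base point `ρ`, rotation of order 3) and `c = 1728` (base point `i`,
rotation of order 2).
-/
import Mathlib
import Fermat.Agent.S24.Family
import Fermat.Agent.S24.Germ.Disc
import Fermat.Agent.S24.Bridge.Lift
import Fermat.Agent.S24.JLocal

set_option autoImplicit false

open UpperHalfPlane CongruenceSubgroup ModularGroup ModularForm EisensteinSeries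
open scoped MatrixGroups Manifold
open Fermat.Agent.S24.Br

namespace Fermat.Agent.S24

/-! ### Power series as Laurent series -/

theorem ff_ofPowerSeries_coeff_neg (x : PowerSeries ℂ) {i : ℤ} (hi : i < 0) :
    (HahnSeries.ofPowerSeries ℤ ℂ x).coeff i = 0 := by
  rw [HahnSeries.ofPowerSeries_apply]
  refine HahnSeries.embDomain_of_notMem_range ?_
  rintro ⟨n, hn⟩
  have : (0 : ℤ) ≤ i := by rw [← hn]; exact Int.natCast_nonneg n
  omega

theorem ff_ofPowerSeries_order (x : PowerSeries ℂ) {e : ℕ} (h : x.order = e) :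
    (HahnSeries.ofPowerSeries ℤ ℂ x).order = e := by
  obtain ⟨h1, h2⟩ := PowerSeries.order_eq_nat.mp h
  have hx : HahnSeries.ofPowerSeries ℤ ℂ x ≠ 0 := by
    intro h0
    have : (HahnSeries.ofPowerSeries ℤ ℂ x).coeff (e : ℤ) = 0 := by rw [h0]; rfl
    rw [HahnSeries.ofPowerSeries_apply_coeff] at this
    exact h1 this
  apply le_antisymm
  · refine HahnSeries.order_le_of_coeff_ne_zero ?_
    rw [HahnSeries.ofPowerSeries_apply_coeff]
    exact h1
  · rw [HahnSeries.le_order_iff_forall hx]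
    intro j hj
    by_cases hj0 : j < 0
    · exact ff_ofPowerSeries_coeff_neg x hj0
    · obtain ⟨n, rfl⟩ := Int.eq_ofNat_of_zero_le (not_lt.mp hj0)
      rw [HahnSeries.ofPowerSeries_apply_coeff]
      exact h2 n (by exact_mod_cast hj)

/-! ### Taylor germs as an abstract germ map -/

/-- the Taylor germ at `z0` in the disc coordinate, as a Laurent series -/
noncomputable def ff_germ (z0 : ℍ) (h : ℍ → ℂ) : LaurentSeries ℂ :=
  HahnSeries.ofPowerSeries ℤ ℂ (gm_taylor z0 h)

theorem ff_isGerm (z0 : ℍ) : fam_IsGerm (fun h => MDiff h) (ff_germ z0) where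
  add f g hf hg := by simp only [ff_germ, gm_taylor_add z0 hf hg, map_add]
  mul f g hf hg := by simp only [ff_germ, gm_taylor_mul z0 hf hg, map_mul]
  const c := by simp only [ff_germ, gm_taylor_const, HahnSeries.ofPowerSeries_C]
  inj f g hf hg h := gm_taylor_injective z0 hf hg (HahnSeries.ofPowerSeries_injective h)

theorem ff_germ_twist (σ : SL(2, ℤ)) {z0 : ℍ} (hσ : σ • z0 = z0) (h : ℍ → ℂ) (hh : MDiff h)
    (i : ℤ) :
    (ff_germ z0 (fun z => h (σ • z))).coeff i = gm_rot σ z0 ^ i * (ff_germ z0 h).coeff i := by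
  by_cases hi : i < 0
  · simp only [ff_germ, ff_ofPowerSeries_coeff_neg _ hi, mul_zero]
  · obtain ⟨n, rfl⟩ := Int.eq_ofNat_of_zero_le (not_lt.mp hi)
    simp only [ff_germ, HahnSeries.ofPowerSeries_apply_coeff, zpow_natCast]
    exact gm_taylor_coeff_smul σ hσ hh n

/-! ### The analytic realisation of `A0 N` -/

variable (N : ℕ) [NeZero N]

/-- the analytic realisation of `A0 N` as a ring homomorphism into functions -/
noncomputable def ff_an : A0 N →+* (ℍ → ℂ) :=
  ((jdAlgebra N).val : jdAlgebra N →+* (ℍ → ℂ)).comp (br_an N)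

theorem ff_an_apply (a : A0 N) : ff_an N a = ((br_an N a : jdAlgebra N) : ℍ → ℂ) := rfl

/-- `j(q^N)` as an element of `A0 N` -/
noncomputable def ff_jN : A0 N :=
  ⟨barGen N, Algebra.subset_adjoin (barGen_mem_barGens (dvd_refl N))⟩

/-- `j(q)` as an element of `A0 N` -/
noncomputable def ff_j1 : A0 N :=
  ⟨barGen 1, Algebra.subset_adjoin (barGen_mem_barGens (one_dvd N))⟩

theorem ff_an_j1 : ff_an N (ff_j1 N) = kleinJ := by
  rw [ff_an_apply, ff_j1, br_an_barGen N (one_dvd N), jd_one]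

theorem ff_isRealisation :
    fam_IsRealisation (K := AlgebraicClosure ℚ) N (fun h => MDiff h) (ff_an N) (ff_jN N) where
  const c := br_an_algebraMap N c
  inj := Subtype.val_injective.comp (br_an_injective N)
  inv a := (br_an_isWeakModFun N a).inv
  adm a g := gm_mdiff_comp_smul g (br_an_isWeakModFun N a).mdiff
  jN := br_an_barGen N (dvd_refl N)

/-- the function `j` as an element of the prelude field `modularFunctionFieldBar N` -/
noncomputable abbrev ff_jF : ModularCurve.modularFunctionFieldBar N := barGenF N 1 (one_dvd N)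

/-- the family of Taylor-germ embeddings at `z0` -/
noncomputable def ff_phi (z0 : ℍ) :
    Comb.Q N → (ModularCurve.modularFunctionFieldBar N →ₐ[AlgebraicClosure ℚ] LaurentSeries ℂ) :=
  fam_phi (ff_isGerm z0) (ff_isRealisation N)

theorem ff_phi_injective (z0 : ℍ) : Function.Injective (ff_phi N z0) :=
  fam_phi_injective (ff_isGerm z0) (ff_isRealisation N)

/-- all the embeddings send `j - c` to the Taylor germ of `j - j(z0)` when `ι c = j(z0)` -/
theorem ff_phi_sub (z0 : ℍ) (c : AlgebraicClosure ℚ) (hc : br_iota c = kleinJ z0) (x : Comb.Q N) :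
    ff_phi N z0 x (ff_jF N - algebraMap (AlgebraicClosure ℚ) _ c) =
      ff_germ z0 (fun z => kleinJ z - kleinJ z0) := by
  have h1 : ff_jF N - algebraMap (AlgebraicClosure ℚ) (ModularCurve.modularFunctionFieldBar N) c =
      algebraMap (A0 N) (ModularCurve.modularFunctionFieldBar N)
        (ff_j1 N - algebraMap (AlgebraicClosure ℚ) (A0 N) c) := by
    rw [map_sub, ← IsScalarTower.algebraMap_apply]
    rfl
  have h2 : ff_an N (ff_j1 N - algebraMap (AlgebraicClosure ℚ) (A0 N) c) =
      fun z => kleinJ z - kleinJ z0 := by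
    rw [map_sub, ff_an_j1, (ff_isRealisation N).const c]
    ext z
    simp only [Pi.sub_apply, br_algebraMap_QbarC, hc]
  rw [h1, ff_phi, fam_phi_of_invariant (ff_isGerm z0) (ff_isRealisation N) _ _ x, h2]
  intro g z
  rw [h2]
  simp only [kleinJ_smul]

theorem ff_order_germ (z0 : ℍ) {e : ℕ} (he : jl_ordJ z0 = e) :
    (ff_germ z0 (fun z => kleinJ z - kleinJ z0)).order = e := by
  refine ff_ofPowerSeries_order _ ?_
  rw [gm_taylor_order_sub_const z0 kleinJ_mdiff]
  exact he

theorem ff_phi_twist (z0 : ℍ) (σ : SL(2, ℤ)) (hσ : σ • z0 = z0) (x : Comb.Q N)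
    (f : ModularCurve.modularFunctionFieldBar N) (i : ℤ) :
    (ff_phi N z0 (σ⁻¹ • x) f).coeff i = gm_rot σ z0 ^ i * (ff_phi N z0 x f).coeff i := by
  have hl : gm_rot σ z0 ≠ 0 := by
    intro h0
    have := gm_norm_rot σ hσ
    rw [h0, norm_zero] at this
    exact zero_ne_one this
  exact fam_phi_twist (ff_isGerm z0) (ff_isRealisation N) σ (gm_rot σ z0) hl
    (fun h hh i => ff_germ_twist σ hσ h hh i) x f i

/-! ### The three families -/

/-- **generic fibre**: over `c ≠ 0, 1728` there are `ψ(N)` distinct embeddings, `j - c` of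
order `1`. -/
theorem an_family_generic (c : AlgebraicClosure ℚ) (h0 : c ≠ 0) (h1 : c ≠ 1728) :
    ∃ (φ : Comb.Q N →
        (ModularCurve.modularFunctionFieldBar N →ₐ[AlgebraicClosure ℚ] LaurentSeries ℂ))
      (p0 : LaurentSeries ℂ), Function.Injective φ ∧ p0.order = 1 ∧
        ∀ x, φ x (ff_jF N - algebraMap (AlgebraicClosure ℚ) _ c) = p0 := by
  obtain ⟨z0, hz0⟩ := jl_exists_kleinJ_eq (br_iota c)
  have h4 : E₄ z0 ≠ 0 := by
    intro h
    have : br_iota c = 0 := by rw [← hz0]; exact (jl_kleinJ_eq_zero_iff z0).mpr h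
    exact h0 (br_iota_injective (this.trans (map_zero _).symm))
  have h6 : E₆ z0 ≠ 0 := by
    intro h
    have : br_iota c = 1728 := by rw [← hz0]; exact (jl_kleinJ_eq_1728_iff z0).mpr h
    exact h1 (br_iota_injective (this.trans (map_ofNat br_iota 1728).symm))
  refine ⟨ff_phi N z0, ff_germ z0 (fun z => kleinJ z - kleinJ z0), ff_phi_injective N z0, ?_,
    fun x => ff_phi_sub N z0 c hz0.symm x⟩
  have := ff_order_germ z0 (e := 1) (by rw [jl_order_generic h4 h6]; rfl)
  simpa using this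

/-- the rotation number of `S * T` at `ρ` is a primitive cube root of unity -/
theorem ff_rot_ST_rho : IsPrimitiveRoot (gm_rot (S * T) ρ) 3 := by
  have hconj : (starRingEnd ℂ) (ρ : ℂ) = -1 - ρ := by
    apply Complex.ext
    · simp [UpperHalfPlane.ρ]; norm_num
    · simp [UpperHalfPlane.ρ]
  have hρ0 : (ρ : ℂ) ≠ 0 := UpperHalfPlane.ne_zero ρ
  have hρ1 : (ρ : ℂ) + 1 ≠ 0 := by
    intro h
    have := congrArg Complex.im h
    simp at this
    exact (UpperHalfPlane.im_pos ρ).ne' this
  have hrot : gm_rot (S * T) ρ = (ρ : ℂ)⁻¹ := by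
    rw [gm_rot_int]
    have e10 : ((S * T : SL(2, ℤ)) 1 0 : ℤ) = 1 := by
      simp [ModularGroup.S, ModularGroup.T, Matrix.mul_apply, Fin.sum_univ_two]
    have e11 : ((S * T : SL(2, ℤ)) 1 1 : ℤ) = 1 := by
      simp [ModularGroup.S, ModularGroup.T, Matrix.mul_apply, Fin.sum_univ_two]
    rw [e10, e11, hconj]
    have hsq := ρ_sq
    field_simp
    linear_combination -hsq
  have hcube : (ρ : ℂ) ^ 3 = 1 := by
    have hsq := ρ_sq
    linear_combination ((ρ : ℂ) - 1) * hsq
  have hne1 : (ρ : ℂ) ≠ 1 := by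
    intro h
    have := congrArg Complex.im h
    simp at this
    exact (UpperHalfPlane.im_pos ρ).ne' this
  rw [hrot]
  refine IsPrimitiveRoot.inv ?_
  refine IsPrimitiveRoot.mk_of_lt _ (by norm_num) hcube ?_
  intro l hl0 hl3 hl
  interval_cases l
  · exact hne1 (by simpa using hl)
  · apply hne1
    have : (ρ : ℂ) ^ 3 = (ρ : ℂ) ^ 2 * ρ := by ring
    rw [hl, one_mul] at this
    rw [← this, hcube]

/-- **the fibre over `0`**: base point `ρ`, rotation of order three by `(S T)⁻¹`. -/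
theorem an_family_rho :
    ∃ (φ : Comb.Q N →
        (ModularCurve.modularFunctionFieldBar N →ₐ[AlgebraicClosure ℚ] LaurentSeries ℂ))
      (p0 : LaurentSeries ℂ) (ζ₀ : ℂ) (g : SL(2, ℤ)), IsPrimitiveRoot ζ₀ 3 ∧
        (g = S * T ∨ g = (S * T)⁻¹) ∧ Function.Injective φ ∧ p0.order = 3 ∧
        (∀ x, φ x (ff_jF N) = p0) ∧
        ∀ (x : Comb.Q N) (f : ModularCurve.modularFunctionFieldBar N) (i : ℤ),
          (φ (g • x) f).coeff i = ζ₀ ^ i * (φ x f).coeff i := by
  refine ⟨ff_phi N ρ, ff_germ ρ (fun z => kleinJ z - kleinJ ρ), gm_rot (S * T) ρ, (S * T)⁻¹,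
    ff_rot_ST_rho, Or.inr rfl, ff_phi_injective N ρ, ?_, fun x => ?_,
    fun x f i => ff_phi_twist N ρ (S * T) jl_ST_smul_rho x f i⟩
  · have := ff_order_germ ρ (e := 3) (by rw [jl_ordJ_rho]; rfl)
    simpa using this
  · have h := ff_phi_sub N ρ 0 (by rw [map_zero, jl_kleinJ_rho]) x
    rwa [map_zero, sub_zero] at h

/-- **the fibre over `1728`**: base point `i`, rotation of order two by `S⁻¹`. -/
theorem an_family_I :
    ∃ (φ : Comb.Q N →
        (ModularCurve.modularFunctionFieldBar N →ₐ[AlgebraicClosure ℚ] LaurentSeries ℂ))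
      (p0 : LaurentSeries ℂ) (ζ₀ : ℂ) (g : SL(2, ℤ)), IsPrimitiveRoot ζ₀ 2 ∧
        (g = S ∨ g = S⁻¹) ∧ Function.Injective φ ∧ p0.order = 2 ∧
        (∀ x, φ x (ff_jF N - algebraMap (AlgebraicClosure ℚ) _ 1728) = p0) ∧
        ∀ (x : Comb.Q N) (f : ModularCurve.modularFunctionFieldBar N) (i : ℤ),
          (φ (g • x) f).coeff i = ζ₀ ^ i * (φ x f).coeff i := by
  refine ⟨ff_phi N UpperHalfPlane.I,
    ff_germ UpperHalfPlane.I (fun z => kleinJ z - kleinJ UpperHalfPlane.I),
    gm_rot S UpperHalfPlane.I, S⁻¹, ?_, Or.inr rfl, ff_phi_injective N _, ?_, fun x => ?_,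
    fun x f i => ff_phi_twist N UpperHalfPlane.I S jl_S_smul_I x f i⟩
  · rw [gm_rot_S_I]
    exact IsPrimitiveRoot.neg_one 0 (by norm_num)
  · have := ff_order_germ UpperHalfPlane.I (e := 2) (by rw [jl_ordJ_I]; rfl)
    simpa using this
  · exact ff_phi_sub N UpperHalfPlane.I 1728 (by rw [map_ofNat, jl_kleinJ_I]) x

end Fermat.Agent.S24
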