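/-
M3 (S24 cluster): the family of Laurent embeddings at the cusp `∞`
(`an_family_infty` of the architecture #387): `φ_{gΓ}(f) =` Laurent expansion in
`s = exp(2πi τ / N)` of `(br_an f) ∘ g⁻¹`, twisted by `ζ_N` under `x ↦ T⁻¹ • x`,
with `φ_x(1/j)` of order `N`.
-/
import Mathlib
import Fermat.Agent.S24.Family
import Fermat.Agent.S24.Bridge.Lift
import Fermat.Agent.S24.Germ.LaurentQ

set_option autoImplicit false

open UpperHalfPlane ModularForm Filter Topology Function Complex CongruenceSubgroup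
open scoped MatrixGroups Manifold Real
open Fermat.Agent.S23.QF (IsQFun)
open Fermat.Agent.S23 (alphaN)
open Fermat.Agent.S24.Br

namespace Fermat.Agent.S24

variable (N : ℕ) [NeZero N]

/-! ### The cusp germ of width `N` -/

/-- admissible functions: `τ ↦ h (N τ)` has a Laurent `q`-expansion -/
def fi_P (h : ℍ → ℂ) : Prop := gm_IsMerQ (fun τ => h (alphaN N • τ))

/-- the Laurent expansion of `h` in `s = exp(2πi z / N)` -/
noncomputable def fi_germ (h : ℍ → ℂ) : LaurentSeries ℂ := gm_lq (fun τ => h (alphaN N • τ))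

theorem fi_isGerm : fam_IsGerm (fi_P N) (fi_germ N) where
  add _ _ hf hg := gm_lq_add hf hg
  mul _ _ hf hg := gm_lq_mul hf hg
  const c := gm_lq_const c
  inj f g hf hg h := by
    have h1 := gm_lq_injective hf hg h
    ext z
    have h2 := congrFun h1 ((alphaN N)⁻¹ • z)
    simpa using h2

/-! ### Scaling and translations -/

theorem fi_alphaN_vadd (a : ℝ) (τ : ℍ) :
    alphaN N • (a +ᵥ τ) = ((N : ℝ) * a) +ᵥ (alphaN N • τ) := by
  apply UpperHalfPlane.ext
  rw [Fermat.Agent.S23.coe_alphaN_smul, UpperHalfPlane.coe_vadd, UpperHalfPlane.coe_vadd,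
    Fermat.Agent.S23.coe_alphaN_smul]
  push_cast
  ring

omit [NeZero N] in
/-- `h ∘ g` is `N`-periodic for `Γ₀(N)`-invariant `h` -/
theorem fi_periodic {h : ℍ → ℂ} (hinv : ∀ γ ∈ Gamma0 N, ∀ z, h (γ • z) = h z)
    (g : SL(2, ℤ)) (z : ℍ) : h (g • ((N : ℝ) +ᵥ z)) = h (g • z) := by
  have hT : ModularGroup.T ^ (N : ℤ) ∈ CongruenceSubgroup.Gamma N := by
    have := ModularGroup_T_pow_mem_Gamma (N : ℤ) (N : ℤ) (dvd_refl _)
    simpa using this
  have hconj : g * ModularGroup.T ^ (N : ℤ) * g⁻¹ ∈ Gamma0 N := by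
    have h1 : g * ModularGroup.T ^ (N : ℤ) * g⁻¹ ∈ CongruenceSubgroup.Gamma N :=
      (Gamma_normal N).conj_mem _ hT g
    rw [Gamma_mem] at h1
    rw [Gamma0_mem]
    exact h1.2.2.1
  have h2 : (g • ((N : ℝ) +ᵥ z) : ℍ) = (g * ModularGroup.T ^ (N : ℤ) * g⁻¹) • (g • z) := by
    rw [← mul_smul, inv_mul_cancel_right, mul_smul, UpperHalfPlane.modular_T_zpow_smul]
    simp
  rw [h2, hinv _ hconj]

/-- translates of weak modular functions of level `N` are admissible -/
theorem fi_adm {h : ℍ → ℂ} (hh : IsWeakModFun N h) (g : SL(2, ℤ)) :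
    fi_P N (fun z => h (g • z)) := by
  obtain ⟨m, hm⟩ := hh.growth g
  have hmd : MDiff (fun z => h (g • z)) := by
    have := hh.mdiff.comp (UpperHalfPlane.mdifferentiable_smul
      (g := (Matrix.SpecialLinearGroup.mapGL ℝ g)) (by simp))
    exact this
  refine ⟨N * m, ?_⟩
  have e : (qH ^ (N * m) * fun τ => h (g • (alphaN N • τ))) =
      fun τ => (fun z => qH z ^ m * h (g • z)) (alphaN N • τ) := by
    ext τ
    simp only [Pi.mul_apply, Pi.pow_apply, br_qH_alphaN_smul, pow_mul]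
  rw [e]
  refine ⟨?_, ?_, ?_⟩
  · exact ((qH_mdiff.pow m).mul hmd).comp
      (UpperHalfPlane.mdifferentiable_smul (Fermat.Agent.S23.det_alphaN_pos N))
  · apply gm_periodic_of_vadd
    intro τ
    simp only
    rw [fi_alphaN_vadd, mul_one, gm_qH_vadd, fi_periodic N hh.inv g]
    have : cexp (2 * π * Complex.I * ((N : ℝ) : ℂ)) = 1 := by
      have h1 := Complex.exp_nat_mul_two_pi_mul_I N
      rw [← h1]
      congr 1
      push_cast
      ring
    rw [this, one_mul]
  · exact hm.comp_tendsto (tendsto_atImInfty_of_im_eq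
      (by exact_mod_cast Nat.pos_of_ne_zero (NeZero.ne N)) (br_im_alphaN_smul N))

/-! ### The twist: `z ↦ z + 1` multiplies the `n`-th coefficient by `ζ_N ^ n` -/

/-- `ζ_N = exp(2πi / N)` -/
noncomputable def fi_zeta : ℂ := cexp (2 * π * Complex.I * (((1 : ℝ) / N : ℝ) : ℂ))

omit [NeZero N] in
theorem fi_zeta_ne_zero : fi_zeta N ≠ 0 := Complex.exp_ne_zero _

theorem fi_zeta_isPrimitiveRoot : IsPrimitiveRoot (fi_zeta N) N := by
  have h := Complex.isPrimitiveRoot_exp N (NeZero.ne N)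
  have e : fi_zeta N = cexp (2 * π * Complex.I / N) := by
    rw [fi_zeta]
    congr 1
    push_cast
    ring
  rw [e]
  exact h

theorem fi_twist (h : ℍ → ℂ) (hh : fi_P N h) (i : ℤ) :
    (fi_germ N (fun z => h (ModularGroup.T • z))).coeff i
      = fi_zeta N ^ i * (fi_germ N h).coeff i := by
  have hN : (N : ℝ) ≠ 0 := by exact_mod_cast NeZero.ne N
  have e : (fun τ => (fun z => h (ModularGroup.T • z)) (alphaN N • τ))
      = fun τ => (fun τ' => h (alphaN N • τ')) (((1 : ℝ) / N : ℝ) +ᵥ τ) := by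
    ext τ
    simp only
    rw [fi_alphaN_vadd, UpperHalfPlane.modular_T_smul, mul_one_div_cancel hN]
  rw [fi_germ, e, gm_lq_coeff_vadd hh]
  rfl

/-! ### The analytic realisation of `A0 N` -/

/-- `A0 N → (ℍ → ℂ)` -/
noncomputable def fi_an : A0 N →+* (ℍ → ℂ) :=
  ((jdAlgebra N).val : jdAlgebra N →+* (ℍ → ℂ)).comp (br_an N)

theorem fi_an_apply (x : A0 N) : fi_an N x = ((br_an N x : jdAlgebra N) : ℍ → ℂ) := rfl

/-- the generator `j(q^d)` in `A0 N` -/
noncomputable def fi_gen (d : ℕ) [NeZero d] (hd : d ∣ N) : A0 N :=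
  ⟨barGen d, Algebra.subset_adjoin (barGen_mem_barGens hd)⟩

theorem fi_an_gen (d : ℕ) [NeZero d] (hd : d ∣ N) : fi_an N (fi_gen N d hd) = jd d :=
  br_an_barGen N hd

theorem fi_algebraMap_gen (d : ℕ) [NeZero d] (hd : d ∣ N) :
    algebraMap (A0 N) (ModularCurve.modularFunctionFieldBar N) (fi_gen N d hd) = barGenF N d hd :=
  rfl

theorem fi_isRealisation :
    fam_IsRealisation (K := AlgebraicClosure ℚ) N (fi_P N) (fi_an N) (fi_gen N N (dvd_refl N)) where
  const c := by
    rw [fi_an_apply, br_an_algebraMap]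
    rfl
  inj := Subtype.val_injective.comp (br_an_injective N)
  inv a := (br_an_isWeakModFun N a).inv
  adm a g := fi_adm N (br_an_isWeakModFun N a) g
  jN := fi_an_gen N N (dvd_refl N)

/-! ### The image of `j` and of `1/j` -/

theorem fi_germ_kleinJ : fi_germ N kleinJ = gm_lq (jd N) := rfl

theorem fi_isQFun_jd : IsQFun (qH ^ N * jd N) := by
  have e : (qH ^ N * jd N) = fun τ => (qH * kleinJ) (alphaN N • τ) := by
    ext τ
    simp only [Pi.mul_apply, Pi.pow_apply, br_qH_alphaN_smul, jd]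
  rw [e]
  exact br_isQFun_comp_alphaN N isQFun_qH_mul_kleinJ

theorem fi_tendsto_jd : Tendsto (qH ^ N * jd N) atImInfty (𝓝 1) := by
  have e : (qH ^ N * jd N) = (qH * kleinJ) ∘ fun τ => alphaN N • τ := by
    ext τ
    simp only [Pi.mul_apply, Pi.pow_apply, br_qH_alphaN_smul, jd, Function.comp_apply]
  rw [e]
  exact tendsto_qH_mul_kleinJ.comp (tendsto_atImInfty_of_im_eq
      (by exact_mod_cast Nat.pos_of_ne_zero (NeZero.ne N)) (br_im_alphaN_smul N))

theorem fi_order_germ_kleinJ : (fi_germ N kleinJ).order = -(N : ℤ) :=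
  (gm_lq_order_of_tendsto (fi_isQFun_jd N) one_ne_zero (fi_tendsto_jd N)).1

theorem fi_germ_kleinJ_ne_zero : fi_germ N kleinJ ≠ 0 := by
  intro h
  have h1 := fi_order_germ_kleinJ N
  rw [h, HahnSeries.order_zero] at h1
  have : (N : ℤ) ≠ 0 := by exact_mod_cast NeZero.ne N
  omega

theorem fi_order_inv : ((fi_germ N kleinJ)⁻¹).order = (N : ℤ) := by
  have h0 := fi_germ_kleinJ_ne_zero N
  have h1 : (fi_germ N kleinJ * (fi_germ N kleinJ)⁻¹).order = 0 := by
    rw [mul_inv_cancel₀ h0, HahnSeries.order_one]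
  rw [HahnSeries.order_mul h0 (inv_ne_zero h0), fi_order_germ_kleinJ] at h1
  omega

/-! ### The family at `∞` -/

/-- the embeddings at the cusp `∞`, indexed by the cosets -/
noncomputable def fi_phi (x : Comb.Q N) :
    ModularCurve.modularFunctionFieldBar N →ₐ[AlgebraicClosure ℚ] LaurentSeries ℂ :=
  fam_phi (F := ModularCurve.modularFunctionFieldBar N) (fi_isGerm N) (fi_isRealisation N) x

theorem fi_phi_j (x : Comb.Q N) : fi_phi N x (barGenF N 1 (one_dvd N)) = fi_germ N kleinJ := by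
  rw [fi_phi, ← fi_algebraMap_gen N 1 (one_dvd N), fam_phi_of_invariant, fi_an_gen, jd_one]
  intro g z
  rw [fi_an_gen, jd_one, kleinJ_smul]

/-- **the family at the cusp `∞`** (architecture #387, `an_family_infty`) -/
theorem an_family_infty :
    ∃ (φ : Comb.Q N → (ModularCurve.modularFunctionFieldBar N →ₐ[AlgebraicClosure ℚ]
        LaurentSeries ℂ)) (p0 : LaurentSeries ℂ) (ζ₀ : ℂ) (g : SL(2, ℤ)),
      IsPrimitiveRoot ζ₀ N ∧ (g = ModularGroup.T ∨ g = ModularGroup.T⁻¹) ∧ Function.Injective φ ∧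
      p0.order = (N : ℤ) ∧ (∀ x, φ x (barGenF N 1 (one_dvd N))⁻¹ = p0) ∧
      (∀ (x : Comb.Q N) (f : ModularCurve.modularFunctionFieldBar N) (i : ℤ),
        (φ (g • x) f).coeff i = ζ₀ ^ i * (φ x f).coeff i) := by
  refine ⟨fi_phi N, (fi_germ N kleinJ)⁻¹, fi_zeta N, ModularGroup.T⁻¹, fi_zeta_isPrimitiveRoot N,
    Or.inr rfl, fam_phi_injective _ _, fi_order_inv N, fun x => ?_, fun x f i => ?_⟩
  · rw [map_inv₀, fi_phi_j]
  · exact fam_phi_twist (fi_isGerm N) (fi_isRealisation N) ModularGroup.T (fi_zeta N)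
      (fi_zeta_ne_zero N) (fun h hh i => fi_twist N h hh i) x f i

end Fermat.Agent.S24
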