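/-
M3 (S24 cluster), An6a: a field extension (char. 0) all of whose elements are roots of monic
polynomials of degree `≤ n` has degree `≤ n` (primitive element theorem).
-/
import Mathlib

set_option autoImplicit false

open Polynomial IntermediateField

namespace Fermat.Agent.S24

theorem finrank_le_of_forall_natDegree_minpoly_le {E F : Type*} [Field E] [Field F] [Algebra E F]
    [CharZero E] (n : ℕ) (hint : ∀ x : F, IsIntegral E x)
    (hdeg : ∀ x : F, (minpoly E x).natDegree ≤ n) :
    FiniteDimensional E F ∧ Module.finrank E F ≤ n := by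
  classical
  have : Algebra.IsAlgebraic E F := ⟨fun x => (hint x).isAlgebraic⟩
  -- an element of maximal degree
  obtain ⟨x, hx⟩ : ∃ x : F, ∀ y : F, (minpoly E y).natDegree ≤ (minpoly E x).natDegree := by
    let P : ℕ → Prop := fun d => ∃ x : F, (minpoly E x).natDegree = d
    have hP0 : P (minpoly E (0 : F)).natDegree := ⟨0, rfl⟩
    obtain ⟨x, hx⟩ : P (Nat.findGreatest P n) := Nat.findGreatest_spec (hdeg 0) hP0
    exact ⟨x, fun y => hx ▸ Nat.le_findGreatest (hdeg y) ⟨y, rfl⟩⟩
  have hfx : FiniteDimensional E E⟮x⟯ := adjoin.finiteDimensional (hint x)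
  have htop : E⟮x⟯ = ⊤ := by
    rw [eq_top_iff]
    intro y _
    have hfy : FiniteDimensional E E⟮y⟯ := adjoin.finiteDimensional (hint y)
    set L : IntermediateField E F := E⟮x⟯ ⊔ E⟮y⟯ with hL
    have : FiniteDimensional E L := IntermediateField.finiteDimensional_sup _ _
    obtain ⟨α, hα⟩ := Field.exists_primitive_element E L
    have hαint : IsIntegral E α := Algebra.IsIntegral.isIntegral α
    have h1 : Module.finrank E L = (minpoly E α).natDegree := by
      rw [← IntermediateField.adjoin.finrank hαint, hα, IntermediateField.finrank_top']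
    have h2 : minpoly E α = minpoly E (α : F) := by
      exact (minpoly.algebraMap_eq (algebraMap L F).injective α).symm
    have h3 : Module.finrank E L ≤ Module.finrank E E⟮x⟯ := by
      rw [h1, h2, IntermediateField.adjoin.finrank (hint x)]
      exact hx _
    have hle : E⟮x⟯ ≤ L := le_sup_left
    have heq : E⟮x⟯ = L := IntermediateField.eq_of_le_of_finrank_le hle h3
    rw [heq]
    exact (le_sup_right : E⟮y⟯ ≤ L) (mem_adjoin_simple_self E y)
  have hfin : FiniteDimensional E F := by
    have : FiniteDimensional E (⊤ : IntermediateField E F) := htop ▸ hfx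
    exact (IntermediateField.topEquiv (F := E) (E := F)).toLinearEquiv.finiteDimensional
  refine ⟨hfin, ?_⟩
  have h4 : Module.finrank E F = Module.finrank E E⟮x⟯ := by
    rw [htop, IntermediateField.finrank_top']
  rw [h4, IntermediateField.adjoin.finrank (hint x)]
  exact hdeg x

theorem finrank_le_of_forall_exists_monic {E F : Type*} [Field E] [Field F] [Algebra E F]
    [CharZero E] (n : ℕ)
    (h : ∀ x : F, ∃ p : E[X], p.Monic ∧ p.natDegree ≤ n ∧ aeval x p = 0) :
    FiniteDimensional E F ∧ Module.finrank E F ≤ n := by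
  refine finrank_le_of_forall_natDegree_minpoly_le n (fun x => ?_) (fun x => ?_)
  · obtain ⟨p, hp, -, hx⟩ := h x
    exact ⟨p, hp, hx⟩
  · obtain ⟨p, hp, hpn, hx⟩ := h x
    exact (natDegree_le_natDegree (minpoly.min E x hp hx)).trans hpn

end Fermat.Agent.S24
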