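/-
M3 (S24 cluster), analytic side An1': a weakly holomorphic modular function of level `Γ₀(N)`
is a root of a monic polynomial of degree `[SL(2,ℤ) : Γ₀(N)]` with coefficients in `ℂ[j]`.
-/
import Mathlib
import Fermat.Agent.S24.WeakModFun
import Fermat.Agent.S23.SymmForms

set_option autoImplicit false

open UpperHalfPlane ModularForm SlashInvariantForm Filter Topology Function Complex CongruenceSubgroup Finset
open scoped MatrixGroups Manifold Real
open Fermat.Agent.S23.QF (IsQFun)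
open Fermat.Agent.S23 (esymmFun esymmFun_eq esymmFun_slash esymm_root esymmFun_zero)

namespace Fermat.Agent.S24

/-- functions with at most a pole at `i∞` (in the variable `q`) -/
def PoleBdd (F : ℍ → ℂ) : Prop := ∃ m : ℕ, IsBoundedAtImInfty (qH ^ m * F)

namespace PoleBdd

variable {F G : ℍ → ℂ}

theorem one : PoleBdd (1 : ℍ → ℂ) := ⟨0, by
  have h : (qH ^ 0 * (1 : ℍ → ℂ)) = Function.const ℍ 1 := by ext z; simp
  rw [h]; exact Filter.const_boundedAtFilter atImInfty 1⟩

theorem zero : PoleBdd (0 : ℍ → ℂ) := ⟨0, by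
  have h : (qH ^ 0 * (0 : ℍ → ℂ)) = Function.const ℍ 0 := by ext z; simp
  rw [h]; exact Filter.const_boundedAtFilter atImInfty 0⟩

theorem add (hF : PoleBdd F) (hG : PoleBdd G) : PoleBdd (F + G) := by
  obtain ⟨m₁, h₁⟩ := hF
  obtain ⟨m₂, h₂⟩ := hG
  refine ⟨max m₁ m₂, ?_⟩
  rw [mul_add]
  exact (isBoundedAtImInfty_qH_pow_mul_of_le (le_max_left _ _) h₁).add
    (isBoundedAtImInfty_qH_pow_mul_of_le (le_max_right _ _) h₂)

theorem mul (hF : PoleBdd F) (hG : PoleBdd G) : PoleBdd (F * G) := by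
  obtain ⟨m₁, h₁⟩ := hF
  obtain ⟨m₂, h₂⟩ := hG
  refine ⟨m₁ + m₂, ?_⟩
  have e : qH ^ (m₁ + m₂) * (F * G) = (qH ^ m₁ * F) * (qH ^ m₂ * G) := by
    rw [pow_add]; ring
  rw [e]
  exact h₁.mul h₂

theorem sum {ι : Type*} (s : Finset ι) {F : ι → ℍ → ℂ} (hF : ∀ i ∈ s, PoleBdd (F i)) :
    PoleBdd (∑ i ∈ s, F i) := by
  classical
  induction s using Finset.induction_on with
  | empty => simpa using zero
  | insert a s ha ih =>
    rw [Finset.sum_insert ha]
    exact (hF a (Finset.mem_insert_self a s)).add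
      (ih fun i hi => hF i (Finset.mem_insert_of_mem hi))

theorem prod {ι : Type*} (s : Finset ι) {F : ι → ℍ → ℂ} (hF : ∀ i ∈ s, PoleBdd (F i)) :
    PoleBdd (∏ i ∈ s, F i) := by
  classical
  induction s using Finset.induction_on with
  | empty => simpa using one
  | insert a s ha ih =>
    rw [Finset.prod_insert ha]
    exact (hF a (Finset.mem_insert_self a s)).mul
      (ih fun i hi => hF i (Finset.mem_insert_of_mem hi))

end PoleBdd

/-- `Γ₀(N)` as a subgroup of `GL(2,ℝ)` -/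
abbrev G0 (N : ℕ) : Subgroup (GL (Fin 2) ℝ) :=
  (Gamma0 N).map (Matrix.SpecialLinearGroup.mapGL ℝ)

variable {N : ℕ}

/-- a weakly holomorphic modular function as a slash invariant form of weight `0` -/
noncomputable def IsWeakModFun.toSIF {h : ℍ → ℂ} (hh : IsWeakModFun N h) :
    SlashInvariantForm (G0 N) 0 where
  toFun := h
  slash_action_eq' γ hγ := by
    obtain ⟨g, hg, rfl⟩ := hγ
    exact (slash_zero_eq_iff h g).mpr (hh.inv g hg)

theorem IsWeakModFun.coe_toSIF {h : ℍ → ℂ} (hh : IsWeakModFun N h) : ⇑hh.toSIF = h := rfl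

variable [NeZero N]

local notation "𝒬" => 𝒮ℒ ⧸ (Subgroup.subgroupOf (G0 N) 𝒮ℒ)

omit [NeZero N] in
/-- each translate of a weakly holomorphic modular function is `z ↦ h (γ • z)` -/
theorem quotientFunc_toSIF_eq {h : ℍ → ℂ} (hh : IsWeakModFun N h) (q : 𝒬) :
    ∃ γ : SL(2, ℤ), quotientFunc hh.toSIF q = fun z => h (γ • z) := by
  induction q using Quotient.inductionOn with
  | h r =>
    obtain ⟨γ, hγ⟩ : r.val⁻¹ ∈ 𝒮ℒ := inv_mem r.2
    refine ⟨γ, ?_⟩
    rw [quotientFunc_mk, ← hγ]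
    ext z
    rw [IsWeakModFun.coe_toSIF]
    show (h ∣[(0 : ℤ)] γ) z = h (γ • z)
    rw [ModularForm.SL_slash_apply, neg_zero, zpow_zero, mul_one]

omit [NeZero N] in
theorem quotientFunc_toSIF_mdiff {h : ℍ → ℂ} (hh : IsWeakModFun N h) (q : 𝒬) :
    MDiff (quotientFunc hh.toSIF q) := by
  induction q using Quotient.inductionOn with
  | h r =>
    rw [quotientFunc_mk]
    exact hh.mdiff.slash 0 _

omit [NeZero N] in
theorem quotientFunc_toSIF_poleBdd {h : ℍ → ℂ} (hh : IsWeakModFun N h) (q : 𝒬) :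
    PoleBdd (quotientFunc hh.toSIF q) := by
  obtain ⟨γ, hγ⟩ := quotientFunc_toSIF_eq hh q
  rw [hγ]
  exact hh.growth γ

/-- the elementary symmetric functions of the translates are weakly holomorphic of level one -/
theorem exists_isWeakLevelOne_esymmFun {h : ℍ → ℂ} (hh : IsWeakModFun N h) (r : ℕ) :
    ∃ m : ℕ, IsWeakLevelOne m (esymmFun hh.toSIF r) := by
  let := Fintype.ofFinite 𝒬
  have hpb : PoleBdd (esymmFun hh.toSIF r) := by
    rw [esymmFun_eq]
    exact PoleBdd.sum _ fun S _ => PoleBdd.prod _ fun q _ => quotientFunc_toSIF_poleBdd hh q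
  obtain ⟨m, hm⟩ := hpb
  refine ⟨m, ?_, ?_, hm⟩
  · rw [esymmFun_eq]
    exact .sum fun S _ => .prod fun q _ => quotientFunc_toSIF_mdiff hh q
  · intro γ
    have h1 := esymmFun_slash hh.toSIF r (h := Matrix.SpecialLinearGroup.mapGL ℝ γ) ⟨γ, rfl⟩
    rw [zero_mul] at h1
    exact (slash_zero_eq_iff _ γ).mp h1

/-- **Integrality**: a weakly holomorphic modular function of level `Γ₀(N)` is a root of a monic
polynomial of degree `ψ = [SL(2,ℤ) : Γ₀(N)]` with coefficients in `ℂ[j]`. -/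
theorem exists_monic_relation {h : ℍ → ℂ} (hh : IsWeakModFun N h) :
    ∃ P : ℕ → Polynomial ℂ, P 0 = 1 ∧ ∀ z : ℍ,
      ∑ r ∈ range (Nat.card 𝒬 + 1),
        (-1) ^ r * (P r).eval (kleinJ z) * h z ^ (Nat.card 𝒬 - r) = 0 := by
  have hex : ∀ r : ℕ, ∃ P : Polynomial ℂ, ∀ z, esymmFun hh.toSIF r z = P.eval (kleinJ z) := by
    intro r
    obtain ⟨m, hm⟩ := exists_isWeakLevelOne_esymmFun hh r
    obtain ⟨P, -, hP⟩ := exists_polynomial_of_isWeakLevelOne m _ hm
    exact ⟨P, hP⟩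
  choose P hP using hex
  refine ⟨fun r => if r = 0 then 1 else P r, by simp, fun z => ?_⟩
  have hroot := esymm_root hh.toSIF z
  rw [← hroot]
  refine Finset.sum_congr rfl fun r _ => ?_
  by_cases hr : r = 0
  · subst hr
    simp [esymmFun_zero]
    rfl
  · simp only [hr, if_false, hP r z]
    rfl

end Fermat.Agent.S24
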