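/-
S24 helper library (helper3): ABSTRACT LEMMA A, "places over a point = orbits of embeddings".

`F/K` a field extension (function field), `π : F`.  Given a finite family of pairwise distinct
`K`-embeddings `φ x : F →ₐ[K] K'((s))` (`x : X`), all sending `π` to the same series `p₀` of
order `m > 0`, permuted by `ρ : Perm X` with `φ (ρ x) = twist_{ζ₀} ∘ φ x` (coefficient `i` is
multiplied by `ζ₀ ^ i`, `ζ₀` a primitive `m`-th root of unity), such that the places of `F/K`
above `π = 0` have residue field `K` and `∑_{v | π} ord_v π = #X`.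
Then the places `v` of `F/K` with `0 < ord_v π` are in bijection with the `ρ`-orbits on `X`,
and `ord_v π` is the size of the corresponding orbit.
-/
import Mathlib
import Fermat.Prelude.Def_AlgebraicCurve_DivisorClassGroup
import Fermat.Agent.S24.PlacesOrbits.Orbits2

set_option autoImplicit false

namespace Fermat.Agent.S24

open AlgebraicCurve HahnSeries

variable {K K' F : Type*} [Field K] [Field K'] [Algebra K K'] [Field F] [Algebra K F]

namespace po_Hyp

variable {π : F} {m : ℕ} {ζ₀ : K'} {X : Type*} {φ : X → F →ₐ[K] LaurentSeries K'}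
  {p₀ : LaurentSeries K'} {ρ : Equiv.Perm X} (H : po_Hyp π m ζ₀ φ p₀ ρ)

include H

theorem plc_zpow (n : ℤ) (x : X) : H.plc ((ρ ^ n) x) = H.plc x := by
  cases n with
  | ofNat n => simpa using H.plc_iter n x
  | negSucc n =>
    have h := H.plc_iter (n + 1) ((ρ ^ Int.negSucc n) x)
    rw [← Equiv.Perm.mul_apply, zpow_negSucc, mul_inv_cancel, Equiv.Perm.one_apply] at h
    rw [zpow_negSucc]
    exact h.symm

theorem plc_eq_of_mem_orbit {x x' : X} (h : x' ∈ MulAction.orbit (Subgroup.zpowers ρ) x) :
    H.plc x' = H.plc x := by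
  obtain ⟨⟨g, hg⟩, rfl⟩ := h
  obtain ⟨n, rfl⟩ := Subgroup.mem_zpowers_iff.mp hg
  exact H.plc_zpow n x

omit [Field K] [Field K'] [Algebra K K'] [Field F] [Algebra K F] H in
theorem mem_orbit_of_pow_eq {x x' : X} (k : ℕ) (h : (ρ ^ k) x = x') :
    x' ∈ MulAction.orbit (Subgroup.zpowers ρ) x :=
  ⟨⟨ρ ^ k, pow_mem (Subgroup.mem_zpowers ρ) k⟩, h⟩

/-- Two indices give the same place iff they lie in the same `ρ`-orbit. -/
theorem plc_eq_iff [CharZero K'] {x x' : X} :
    H.plc x' = H.plc x ↔ x' ∈ MulAction.orbit (Subgroup.zpowers ρ) x := by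
  constructor
  · intro h
    have hA : po_valSubring (φ x) = po_valSubring (φ x') :=
      (congrArg Place.toValuationSubring h).symm
    obtain ⟨k, hk⟩ := H.exists_pow_eq_of_valSubring_eq hA
    exact mem_orbit_of_pow_eq k hk
  · exact H.plc_eq_of_mem_orbit

/-- The map from `ρ`-orbits to places above `π = 0`. -/
noncomputable def orbitPlace :
    MulAction.orbitRel.Quotient (Subgroup.zpowers ρ) X → {v : Place K F // 0 < v.ord π} :=
  Quotient.lift (fun x => (⟨H.plc x, H.ord_plc_pos x⟩ : {v : Place K F // 0 < v.ord π}))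
    (fun _ _ hab => Subtype.ext (H.plc_eq_of_mem_orbit (MulAction.orbitRel_apply.mp hab)))

theorem orbitPlace_mk (x : X) :
    H.orbitPlace (Quotient.mk'' x) = ⟨H.plc x, H.ord_plc_pos x⟩ := rfl

theorem orbitPlace_injective [CharZero K'] : Function.Injective H.orbitPlace := by
  intro a b
  induction a using Quotient.inductionOn' with
  | h x =>
  induction b using Quotient.inductionOn' with
  | h x' =>
  intro h
  rw [orbitPlace_mk, orbitPlace_mk] at h
  have h' : H.plc x = H.plc x' := congrArg Subtype.val h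
  exact Quotient.sound' (MulAction.orbitRel_apply.mpr (H.plc_eq_iff.mp h'))

/-- The ramification index at the place of an orbit is the size of the orbit. -/
theorem card_orbit_eq [CharZero K'] [Finite X]
    (ω : MulAction.orbitRel.Quotient (Subgroup.zpowers ρ) X) :
    (Nat.card ω.orbit : ℤ) = (H.orbitPlace ω).1.ord π := by
  classical
  induction ω using Quotient.inductionOn' with
  | h x =>
  rw [orbitPlace_mk, MulAction.orbitRel.Quotient.orbit_mk]
  have : Fintype (MulAction.orbit (Subgroup.zpowers ρ) x) := Fintype.ofFinite _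
  rw [Nat.card_eq_fintype_card, ← MulAction.minimalPeriod_eq_card]
  exact H.minimalPeriod_eq x

end po_Hyp

/-- **Abstract Lemma A** (places above a point = orbits of the local monodromy).
See the header of this file. -/
theorem po_card_places_eq_card_orbits [CharZero K']
    (π : F) (m : ℕ) (hm : 0 < m) (ζ₀ : K') (hζ₀ : IsPrimitiveRoot ζ₀ m)
    {X : Type*} [Fintype X] (φ : X → F →ₐ[K] LaurentSeries K') (hφ_inj : Function.Injective φ)
    (p₀ : LaurentSeries K') (hp₀ : p₀.order = m) (hφπ : ∀ x, φ x π = p₀)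
    (ρ : Equiv.Perm X)
    (hρ : ∀ (x : X) (f : F) (i : ℤ), (φ (ρ x) f).coeff i = ζ₀ ^ i * (φ x f).coeff i)
    (hres : ∀ v : Place K F, 0 < v.ord π → Function.Surjective (algebraMap K v.ResidueField))
    (hfin : {v : Place K F | 0 < v.ord π}.Finite)
    (hsum : ∑ v ∈ hfin.toFinset, v.ord π = Fintype.card X) :
    Nat.card {v : Place K F // 0 < v.ord π}
      = Nat.card (MulAction.orbitRel.Quotient (Subgroup.zpowers ρ) X) := by
  classical
  have H : po_Hyp π m ζ₀ φ p₀ ρ := ⟨hm, hζ₀, hφ_inj, hp₀, hφπ, hρ, hres⟩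
  let Ω := MulAction.orbitRel.Quotient (Subgroup.zpowers ρ) X
  have : Fintype Ω := Fintype.ofFinite _
  -- the class equation
  have hclass : (Fintype.card X : ℤ) = ∑ ω : Ω, (H.orbitPlace ω).1.ord π := by
    have h1 : Nat.card X = ∑ ω : Ω, Nat.card ω.orbit := by
      rw [Nat.card_congr (MulAction.selfEquivSigmaOrbits' (Subgroup.zpowers ρ) X), Nat.card_sigma]
    rw [← Nat.card_eq_fintype_card, h1]
    push_cast
    exact Finset.sum_congr rfl fun ω _ => H.card_orbit_eq ω
  -- the image of the orbit map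
  set I : Finset (Place K F) := Finset.univ.image (fun ω : Ω => (H.orbitPlace ω).1) with hI
  have hIsum : ∑ v ∈ I, v.ord π = ∑ ω : Ω, (H.orbitPlace ω).1.ord π := by
    rw [hI, Finset.sum_image]
    intro a _ b _ hab
    exact H.orbitPlace_injective (Subtype.ext hab)
  have hIV : I ⊆ hfin.toFinset := by
    intro v hv
    rw [hI, Finset.mem_image] at hv
    obtain ⟨ω, _, rfl⟩ := hv
    rw [Set.Finite.mem_toFinset]
    exact (H.orbitPlace ω).2
  have hsurj : Function.Surjective H.orbitPlace := by
    rintro ⟨v, hv⟩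
    by_contra hno
    have hvI : v ∉ I := by
      intro hvI
      rw [hI, Finset.mem_image] at hvI
      obtain ⟨ω, _, hω⟩ := hvI
      exact hno ⟨ω, Subtype.ext hω⟩
    have hvV : v ∈ hfin.toFinset := by
      rw [Set.Finite.mem_toFinset]; exact hv
    have hlt : ∑ w ∈ I, w.ord π < ∑ w ∈ hfin.toFinset, w.ord π := by
      refine Finset.sum_lt_sum_of_subset hIV hvV hvI hv ?_
      intro w hw _
      rw [Set.Finite.mem_toFinset] at hw
      exact le_of_lt hw
    rw [hIsum, ← hclass, hsum] at hlt
    exact lt_irrefl _ hlt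
  exact (Nat.card_congr (Equiv.ofBijective H.orbitPlace ⟨H.orbitPlace_injective, hsurj⟩)).symm

end Fermat.Agent.S24
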