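import Fermat.Agent.S24.Bridge.Degree
import Fermat.Agent.S24.PlacesOrbits
import Fermat.Agent.S24.Hurwitz.Degree
import Fermat.Agent.S24.FamilyFinite
import Fermat.Agent.S24.FamilyInfty
import Fermat.Agent.S24.Comb.GenusCount
import Fermat.Agent.S24.Comb.Parity
import Fermat.Agent.S24.Comb.Transport
import Fermat.Agent.S24.Comb.Scott

/-! # S24: final assembly (helper2)

`genus (ℚ̄(X₀(N))) = genusFormula N` from
* the abstract Hurwitz count (`hw_genus_eq`, helper23),
* Lemma A: places over a point = orbits of the local monodromy (`po_*`, helper3),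
* the germ families at `ρ`, `i`, a generic point and `∞` (`an_family_*`; helper12/17/18/28),
* the degree `[ℚ̄(X₀(N)) : ℚ̄(j)] = ψ(N)` (helper28, helper17),
* the combinatorics of `SL(2,ℤ) ⧸ Γ₀(N)` (`Comb.*`, helper11, helper3).
-/

set_option autoImplicit false

noncomputable section

namespace Fermat.Agent.S24

open AlgebraicCurve KaehlerDifferential IntermediateField ModularCurve MulAction
open scoped MatrixGroups
open Br

/-- orbits of the trivial cyclic group. -/
theorem asm_card_orbits_one {G X : Type*} [Group G] [MulAction G X] :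
    Nat.card (orbitRel.Quotient (Subgroup.zpowers (1 : G)) X) = Nat.card X := by
  symm
  refine Nat.card_congr (Equiv.ofBijective (fun x => (Quotient.mk'' x)) ⟨?_, ?_⟩)
  · intro a b hab
    have h := Quotient.exact' hab
    rw [orbitRel_apply] at h
    obtain ⟨⟨g, hg⟩, rfl⟩ := h
    rw [Subgroup.zpowers_one_eq_bot, Subgroup.mem_bot] at hg
    subst hg
    simp
  · intro q
    induction q using Quotient.inductionOn' with
    | h x => exact ⟨x, rfl⟩

theorem asm_card_orbits_or {G X : Type*} [Group G] [MulAction G X] {g h : G}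
    (hg : g = h ∨ g = h⁻¹) :
    Nat.card (orbitRel.Quotient (Subgroup.zpowers g) X)
      = Nat.card (orbitRel.Quotient (Subgroup.zpowers h) X) := by
  rcases hg with rfl | rfl
  · rfl
  · exact Comb.card_orbits_inv h

/-- Lemma A (helper3) in the form used by the assembly: group element instead of permutation,
`ncard` instead of `Nat.card`. -/
theorem asm_lemmaA {K K' F X G : Type*} [Field K] [Field K'] [Algebra K K'] [CharZero K']
    [Field F] [Algebra K F] [Finite X] [Group G] [MulAction G X]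
    (π : F) (m : ℕ) (hm : 0 < m) (ζ₀ : K') (hζ₀ : IsPrimitiveRoot ζ₀ m) (g : G)
    (φ : X → (F →ₐ[K] LaurentSeries K')) (hφ : Function.Injective φ)
    (p0 : LaurentSeries K') (hp0 : p0.order = (m : ℤ)) (hπ : ∀ x, φ x π = p0)
    (htw : ∀ (x : X) (f : F) (i : ℤ), (φ (g • x) f).coeff i = ζ₀ ^ i * (φ x f).coeff i)
    (hres : ∀ v : Place K F, Function.Surjective (algebraMap K v.ResidueField))
    (hfin : {v : Place K F | 0 < v.ord π}.Finite)
    (hsum : ∑ v ∈ hfin.toFinset, v.ord π = (Nat.card X : ℤ)) :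
    {v : Place K F | 0 < v.ord π}.ncard
      = Nat.card (orbitRel.Quotient (Subgroup.zpowers g) X) := by
  classical
  haveI : Fintype X := Fintype.ofFinite X
  have h := po_card_places_eq_card_orbits (K := K) (K' := K') (F := F) π m hm ζ₀ hζ₀ φ hφ p0
    hp0 hπ (MulAction.toPerm g) (fun x f i => htw x f i) (fun v _ => hres v) hfin
    (by rw [hsum, Nat.card_eq_fintype_card])
  rw [Comb.card_orbits_toPerm] at h
  rw [← h]
  exact (Nat.card_coe_set_eq _).symm

section Main

variable (N : ℕ) [NeZero N]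

theorem asm_transcendental : Transcendental Kbar (ff_jF N) := an_transcendental N

theorem asm_finrank :
    Module.finrank Kbar⟮ff_jF N⟯ (Fbar N) = Nat.card (Comb.Q N) := an_finrank N

theorem asm_finite : FiniteDimensional Kbar⟮ff_jF N⟯ (Fbar N) := by
  apply Module.finite_of_finrank_pos
  rw [asm_finrank]
  exact Nat.card_pos

open ModularGroup

theorem asm_count_generic (c : Kbar) (h0 : c ≠ 0) (h1 : c ≠ 1728) :
    {v : Place Kbar (Fbar N) | 0 < v.ord (ff_jF N - algebraMap Kbar _ c)}.ncard
      = Nat.card (Comb.Q N) := by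
  haveI := asm_finite N
  have hx := asm_transcendental N
  obtain ⟨φ, p0, hφ, hp0, hπ⟩ := an_family_generic N c h0 h1
  have h := asm_lemmaA (K := Kbar) (K' := ℂ) (F := Fbar N) (X := Comb.Q N) (G := SL(2, ℤ))
    (ff_jF N - algebraMap Kbar _ c) 1 one_pos 1 IsPrimitiveRoot.one 1 φ hφ p0
    (by simpa using hp0) hπ (by intro x f i; simp)
    (hw_algebraMap_residueField_surjective (ff_jF N))
    (hw_finite_fiber hx c)
    (by rw [← asm_finrank N]; exact hw_sum_fiber_toFinset hx c)
  rw [asm_card_orbits_one] at h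
  exact h

theorem asm_count_rho :
    {v : Place Kbar (Fbar N) | 0 < v.ord (ff_jF N - algebraMap Kbar _ 0)}.ncard
      = Nat.card (orbitRel.Quotient (Subgroup.zpowers (S * T)) (Comb.Q N)) := by
  haveI := asm_finite N
  have hx := asm_transcendental N
  obtain ⟨φ, p0, ζ, g, hζ, hg, hφ, hp0, hπ, htw⟩ := an_family_rho N
  have h := asm_lemmaA (K := Kbar) (K' := ℂ) (F := Fbar N) (X := Comb.Q N) (G := SL(2, ℤ))
    (ff_jF N - algebraMap Kbar _ 0) 3 (by norm_num) ζ hζ g φ hφ p0
    (by simpa using hp0) (by simpa using hπ) htw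
    (hw_algebraMap_residueField_surjective (ff_jF N))
    (hw_finite_fiber hx 0)
    (by rw [← asm_finrank N]; exact hw_sum_fiber_toFinset hx 0)
  rw [asm_card_orbits_or hg] at h
  exact h

theorem asm_count_I :
    {v : Place Kbar (Fbar N) | 0 < v.ord (ff_jF N - algebraMap Kbar _ 1728)}.ncard
      = Nat.card (orbitRel.Quotient (Subgroup.zpowers S) (Comb.Q N)) := by
  haveI := asm_finite N
  have hx := asm_transcendental N
  obtain ⟨φ, p0, ζ, g, hζ, hg, hφ, hp0, hπ, htw⟩ := an_family_I N
  have h := asm_lemmaA (K := Kbar) (K' := ℂ) (F := Fbar N) (X := Comb.Q N) (G := SL(2, ℤ))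
    (ff_jF N - algebraMap Kbar _ 1728) 2 (by norm_num) ζ hζ g φ hφ p0
    (by simpa using hp0) hπ htw
    (hw_algebraMap_residueField_surjective (ff_jF N))
    (hw_finite_fiber hx 1728)
    (by rw [← asm_finrank N]; exact hw_sum_fiber_toFinset hx 1728)
  rw [asm_card_orbits_or hg] at h
  exact h

theorem asm_infty_set :
    {v : Place Kbar (Fbar N) | 0 < v.ord (ff_jF N)⁻¹}
      = {v : Place Kbar (Fbar N) | v.ord (ff_jF N) < 0} := by
  ext v
  simp only [Set.mem_setOf_eq, Place.ord_inv]
  omega

theorem asm_count_infty :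
    {v : Place Kbar (Fbar N) | v.ord (ff_jF N) < 0}.ncard
      = Nat.card (orbitRel.Quotient (Subgroup.zpowers T) (Comb.Q N)) := by
  haveI := asm_finite N
  have hx := asm_transcendental N
  obtain ⟨φ, p0, ζ, g, hζ, hg, hφ, hp0, hπ, htw⟩ := an_family_infty N
  have hfin : {v : Place Kbar (Fbar N) | 0 < v.ord (ff_jF N)⁻¹}.Finite := by
    rw [asm_infty_set]; exact hw_finite_poles hx
  have h := asm_lemmaA (K := Kbar) (K' := ℂ) (F := Fbar N) (X := Comb.Q N) (G := SL(2, ℤ))
    (ff_jF N)⁻¹ N (Nat.pos_of_ne_zero (NeZero.ne N)) ζ hζ g φ hφ p0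
    hp0 hπ htw
    (hw_algebraMap_residueField_surjective (ff_jF N))
    hfin
    (by
      have h1 := hw_sum_poles_toFinset hx
      have h2 : hfin.toFinset = (hw_finite_poles hx).toFinset := by
        ext v
        simp only [Set.Finite.mem_toFinset]
        rw [asm_infty_set]
      rw [h2, ← asm_finrank N]
      have h3 : ∑ v ∈ (hw_finite_poles hx).toFinset, v.ord (ff_jF N)⁻¹
          = - ∑ v ∈ (hw_finite_poles hx).toFinset, v.ord (ff_jF N) := by
        rw [← Finset.sum_neg_distrib]
        exact Finset.sum_congr rfl (fun v _ => Place.ord_inv v _)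
      rw [h3, h1, neg_neg])
  rw [asm_infty_set, asm_card_orbits_or hg] at h
  exact h

/-- outside `j = 0, 1728` the map `j` is unramified. -/
theorem asm_unramified (c : Kbar) (v : Place Kbar (Fbar N))
    (hv : 1 < v.ord (ff_jF N - algebraMap Kbar _ c)) : c = 0 ∨ c = 1728 := by
  classical
  by_contra hc
  rw [not_or] at hc
  haveI := asm_finite N
  have hx := asm_transcendental N
  have hcount := asm_count_generic N c hc.1 hc.2
  have hsum := hw_sum_fiber_toFinset hx c
  rw [asm_finrank N] at hsum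
  have hcard : (hw_finite_fiber hx c).toFinset.card = Nat.card (Comb.Q N) := by
    rw [← hcount, Set.ncard_eq_toFinset_card _ (hw_finite_fiber hx c)]
  have hmem : v ∈ (hw_finite_fiber hx c).toFinset := by
    rw [Set.Finite.mem_toFinset]
    exact lt_trans one_pos hv
  have hlt : ∑ _v ∈ (hw_finite_fiber hx c).toFinset, (1 : ℤ)
      < ∑ v ∈ (hw_finite_fiber hx c).toFinset, v.ord (ff_jF N - algebraMap Kbar _ c) := by
    apply Finset.sum_lt_sum
    · intro w hw
      rw [Set.Finite.mem_toFinset] at hw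
      exact hw
    · exact ⟨v, hmem, hv⟩
  rw [hsum, Finset.sum_const, hcard] at hlt
  simp at hlt

theorem asm_main [HasCanonicalDivisor (K := Kbar) (F := Fbar N)] :
    (genus Kbar (Fbar N) : ℚ) = genusFormula N := by
  classical
  haveI := asm_finite N
  have hx := asm_transcendental N
  have hg := hw_genus_eq hx ({0, 1728} : Finset Kbar) (fun c v hv => by
    rw [Finset.mem_insert, Finset.mem_singleton]
    exact asm_unramified N c v hv)
  have h01 : (0 : Kbar) ≠ 1728 := by norm_num
  rw [Finset.sum_pair h01, asm_count_rho, asm_count_I, asm_count_infty, asm_finrank] at hg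
  have hE := Comb.even_total N
  have hL := Comb.orbits_le N
  have hH := Comb.hurwitz_count N
  rw [hg]
  set n : ℕ := Nat.card (Comb.Q N) with hn
  set r0 : ℕ := Nat.card (orbitRel.Quotient (Subgroup.zpowers (S * T)) (Comb.Q N)) with hr0
  set r1 : ℕ := Nat.card (orbitRel.Quotient (Subgroup.zpowers S) (Comb.Q N)) with hr1
  set rT : ℕ := Nat.card (orbitRel.Quotient (Subgroup.zpowers T) (Comb.Q N)) with hrT
  obtain ⟨k, hk⟩ := hE
  have hk0 : 0 ≤ k + 1 := by
    have : (r0 : ℤ) + r1 + rT ≤ n + 2 := by exact_mod_cast hL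
    omega
  have hd2 : ((n : ℤ) - r0 + ((n : ℤ) - r1) - n - rT) + 2 = 2 * (k + 1) := by
    have : (n : ℤ) - r0 + ((n : ℤ) - r1) - n - rT = (n : ℤ) - r0 - r1 - rT := by ring
    rw [this, hk]; ring
  have hnat : ((((n : ℤ) - r0 + ((n : ℤ) - r1) - n - rT) + 2).toNat / 2 : ℕ)
      = (k + 1).toNat := by
    rw [hd2]
    have : (2 * (k + 1)).toNat = 2 * (k + 1).toNat := by
      rw [Int.toNat_mul (by norm_num) hk0]; rfl
    rw [this, Nat.mul_div_cancel_left _ (by norm_num : 0 < 2)]
  rw [hnat]
  have hcast : (((k + 1).toNat : ℕ) : ℚ) = ((k + 1 : ℤ) : ℚ) := by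
    have : (((k + 1).toNat : ℕ) : ℤ) = k + 1 := Int.toNat_of_nonneg hk0
    exact_mod_cast congrArg (fun z : ℤ => (z : ℚ)) this
  rw [hcast]
  have hkq : (2 : ℚ) * ((k + 1 : ℤ) : ℚ) = (n : ℚ) - r0 - r1 - rT + 2 := by
    have : (2 : ℤ) * (k + 1) = (n : ℤ) - r0 - r1 - rT + 2 := by rw [hk]; ring
    exact_mod_cast congrArg (fun z : ℤ => (z : ℚ)) this
  linarith

end Main

end Fermat.Agent.S24
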