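import Mathlib

/-! # Counting embeddings (helper2)

`r` pairwise distinct `K`-algebra homs `F → L` that agree on `x` force `r ≤ [F : K(x)]`. -/

set_option autoImplicit false

namespace Fermat.Agent.S24

open IntermediateField

/-- the equalizer of two `K`-algebra homs out of a field, as an intermediate field. -/
def ec_equalizer {K F L : Type*} [Field K] [Field F] [Field L] [Algebra K F] [Algebra K L]
    (f g : F →ₐ[K] L) : IntermediateField K F where
  toSubalgebra := AlgHom.equalizer f g
  inv_mem' := by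
    intro y hy
    change f y⁻¹ = g y⁻¹
    rw [map_inv₀, map_inv₀, show f y = g y from hy]

theorem ec_mem_equalizer {K F L : Type*} [Field K] [Field F] [Field L] [Algebra K F]
    [Algebra K L] (f g : F →ₐ[K] L) (y : F) : y ∈ ec_equalizer f g ↔ f y = g y := Iff.rfl

theorem ec_card_le_finrank {K F L X : Type*} [Field K] [Field F] [Field L] [Algebra K F]
    [Algebra K L] (x : F) [FiniteDimensional K⟮x⟯ F] [Finite X]
    (φ : X → (F →ₐ[K] L)) (hφ : Function.Injective φ) (hx : ∀ a b, φ a x = φ b x) :
    Nat.card X ≤ Module.finrank K⟮x⟯ F := by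
  classical
  rcases isEmpty_or_nonempty X with hX | ⟨⟨a0⟩⟩
  · simp
  -- `L` as a `K⟮x⟯`-algebra through `φ a0`
  letI : Algebra K⟮x⟯ L := ((φ a0).comp (IsScalarTower.toAlgHom K K⟮x⟯ F)).toRingHom.toAlgebra
  have hagree : ∀ (a : X) (y : K⟮x⟯), φ a (y : F) = φ a0 (y : F) := by
    intro a y
    have hle : K⟮x⟯ ≤ ec_equalizer (φ a) (φ a0) := by
      rw [adjoin_simple_le_iff, ec_mem_equalizer]
      exact hx a a0
    exact hle y.2
  -- each `φ a` is `K⟮x⟯`-linear
  let ψ : X → (F →ₐ[K⟮x⟯] L) := fun a =>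
    { (φ a : F →+* L) with
      commutes' := fun y => hagree a y }
  have hψ : Function.Injective ψ := by
    intro a b hab
    apply hφ
    ext z
    have := congrArg (fun f : F →ₐ[K⟮x⟯] L => f z) hab
    exact this
  calc Nat.card X ≤ Nat.card (F →ₐ[K⟮x⟯] L) := by
        haveI : Finite (F →ₐ[K⟮x⟯] L) := inferInstance
        exact Nat.card_le_card_of_injective ψ hψ
    _ ≤ Module.finrank K⟮x⟯ F := card_algHom_le_finrank K⟮x⟯ F L

end Fermat.Agent.S24
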